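import Mathlib

/-!
The cubic field of discriminant `-44`, used for the `2`-descent on `X₁(11)`.
-/

set_option autoImplicit false

namespace Fermat.Agent.X11

open Polynomial NumberField Module

/-- The polynomial `X³ - X² + X + 1`. -/
noncomputable def cubicPoly : ℤ[X] := X ^ 3 - X ^ 2 + X + 1

lemma cubicPoly_monic : cubicPoly.Monic := by
  unfold cubicPoly; monicity!

lemma cubicPoly_natDegree : cubicPoly.natDegree = 3 := by
  unfold cubicPoly; compute_degree!

lemma cubicPoly_irreducible : Irreducible cubicPoly := by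
  refine cubicPoly_monic.irreducible_of_irreducible_map (Int.castRingHom (ZMod 3)) cubicPoly ?_
  have hd : (cubicPoly.map (Int.castRingHom (ZMod 3))).natDegree = 3 := by
    rw [cubicPoly_monic.natDegree_map, cubicPoly_natDegree]
  rw [(cubicPoly_monic.map _).irreducible_iff_roots_eq_zero_of_degree_le_three (by omega) (by omega)]
  refine Multiset.eq_zero_of_forall_notMem fun x hx => ?_
  rw [mem_roots (cubicPoly_monic.map _).ne_zero, IsRoot.def, eval_map] at hx
  unfold cubicPoly at hx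
  simp only [eval₂_sub, eval₂_add, eval₂_pow, eval₂_X, eval₂_one] at hx
  revert hx; revert x; decide

/-- The polynomial `X³ - X² + X + 1` over `ℚ`. -/
noncomputable def cubicPolyQ : ℚ[X] := cubicPoly.map (Int.castRingHom ℚ)

lemma cubicPolyQ_monic : cubicPolyQ.Monic := cubicPoly_monic.map _

lemma cubicPolyQ_natDegree : cubicPolyQ.natDegree = 3 := by
  rw [cubicPolyQ, cubicPoly_monic.natDegree_map, cubicPoly_natDegree]

instance cubicPolyQ_irreducible : Fact (Irreducible cubicPolyQ) :=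
  ⟨(Monic.irreducible_iff_irreducible_map_fraction_map cubicPoly_monic).mp cubicPoly_irreducible⟩

/-- The cubic field of discriminant `-44`. -/
abbrev K11 : Type := AdjoinRoot cubicPolyQ

/-- The power basis of `K11`. -/
noncomputable def pbK : PowerBasis ℚ K11 := AdjoinRoot.powerBasis' cubicPolyQ_monic

instance numberFieldK11 : NumberField K11 :=
  { to_charZero := charZero_of_injective_algebraMap (algebraMap ℚ K11).injective
    to_finiteDimensional := pbK.finite }

lemma finrankK : finrank ℚ K11 = 3 := by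
  rw [pbK.finrank, pbK, AdjoinRoot.powerBasis'_dim, cubicPolyQ_natDegree]

/-- The root, in the field. -/
noncomputable def thK : K11 := AdjoinRoot.root cubicPolyQ

lemma thK_rel : thK ^ 3 - thK ^ 2 + thK + 1 = 0 := by
  have h : cubicPolyQ.eval₂ (AdjoinRoot.of cubicPolyQ) thK = 0 := AdjoinRoot.eval₂_root _
  change (cubicPoly.map (Int.castRingHom ℚ)).eval₂ (AdjoinRoot.of cubicPolyQ) thK = 0 at h
  rw [eval₂_map] at h
  simpa [cubicPoly] using h

lemma thK_isIntegral : IsIntegral ℤ thK :=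
  ⟨cubicPoly, cubicPoly_monic, by
    simpa [cubicPoly] using thK_rel⟩

/-- The root, as an algebraic integer. -/
noncomputable def th : 𝓞 K11 := ⟨thK, thK_isIntegral⟩

lemma coe_th : ((th : 𝓞 K11) : K11) = thK := rfl

lemma th_rel : th ^ 3 - th ^ 2 + th + 1 = 0 := by
  apply RingOfIntegers.ext
  simpa [coe_th] using thK_rel

/-- The algebraic integer with given coordinates. -/
noncomputable def ofc (a b c : ℤ) : 𝓞 K11 := (a : 𝓞 K11) + (b : 𝓞 K11) * th + (c : 𝓞 K11) * th ^ 2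

lemma pbK_dim : pbK.dim = 3 := by
  rw [pbK, AdjoinRoot.powerBasis'_dim, cubicPolyQ_natDegree]

lemma linIndep_thK (a b c : ℚ)
    (h : algebraMap ℚ K11 a + algebraMap ℚ K11 b * thK + algebraMap ℚ K11 c * thK ^ 2 = 0) :
    a = 0 ∧ b = 0 ∧ c = 0 := by
  have hm : AdjoinRoot.mk cubicPolyQ (C a + C b * X + C c * X ^ 2) = 0 := by
    simpa [thK] using h
  rw [AdjoinRoot.mk_eq_zero] at hm
  have hz : C a + C b * X + C c * X ^ 2 = 0 := by
    by_contra hne
    have h1 := natDegree_le_of_dvd hm hne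
    have h2 : (C a + C b * X + C c * X ^ 2).natDegree ≤ 2 := by compute_degree
    rw [cubicPolyQ_natDegree] at h1
    omega
  have h0 := congrArg (fun q => coeff q 0) hz
  have h1 := congrArg (fun q => coeff q 1) hz
  have h2 := congrArg (fun q => coeff q 2) hz
  simp at h0 h1 h2
  exact ⟨h0, h1, h2⟩

lemma ofc_inj {a b c a' b' c' : ℤ} (h : ofc a b c = ofc a' b' c') : a = a' ∧ b = b' ∧ c = c' := by
  have h' := congrArg (fun x : 𝓞 K11 => (x : K11)) h
  simp [ofc, coe_th] at h'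
  obtain ⟨h0, h1, h2⟩ := linIndep_thK ((a : ℚ) - a') ((b : ℚ) - b') ((c : ℚ) - c')
    (by simp; linear_combination h')
  exact ⟨by exact_mod_cast sub_eq_zero.mp h0, by exact_mod_cast sub_eq_zero.mp h1,
    by exact_mod_cast sub_eq_zero.mp h2⟩

lemma ofc_mul (a b c A B C : ℤ) : ofc a b c * ofc A B C =
    ofc (a * A - b * C - c * (B + C)) (a * B + b * (A - C) - c * (B + 2 * C))
      (a * C + b * (B + C) + c * (A + B)) := by
  simp only [ofc]
  push_cast
  linear_combination ((b : 𝓞 K11) * C + c * B + c * C + (c : 𝓞 K11) * C * th) * th_rel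

/-- The norm form. -/
def nform (a b c : ℤ) : ℤ :=
  a * ((a - c) * (a + b) + (b + c) * (b + 2 * c)) - c * (-b * (a + b) - c * (b + 2 * c))
    - (b + c) * (b * (b + c) - c * (a - c))

lemma ofc_adj (a b c : ℤ) :
    ofc a b c * ofc ((a - c) * (a + b) + (b + c) * (b + 2 * c)) (-b * (a + b) - c * (b + 2 * c))
      (b * (b + c) - c * (a - c)) = ofc (nform a b c) 0 0 := by
  rw [ofc_mul]
  simp only [nform]
  congr 1 <;> ring

lemma nform_mul (a b c A B C : ℤ) :
    nform (a * A - b * C - c * (B + C)) (a * B + b * (A - C) - c * (B + 2 * C))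
      (a * C + b * (B + C) + c * (A + B)) = nform a b c * nform A B C := by
  simp only [nform]; ring

lemma half_not_integral : ¬ IsUnit (2 : 𝓞 K11) := by
  intro h
  obtain ⟨x, hx⟩ := h.exists_right_inv
  have h2 : ((x : 𝓞 K11) : K11) = algebraMap ℚ K11 (1 / 2) := by
    have := congrArg (fun y : 𝓞 K11 => (y : K11)) hx
    simp [map_ofNat] at this
    rw [map_div₀, map_one, map_ofNat]
    field_simp
    linear_combination this
  have h3 : IsIntegral ℤ (algebraMap ℚ K11 (1 / 2)) := h2 ▸ x.isIntegral_coe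
  rw [isIntegral_algebraMap_iff (algebraMap ℚ K11).injective] at h3
  obtain ⟨k, hk⟩ := IsIntegrallyClosed.isIntegral_iff.mp h3
  simp at hk
  have : (2 * k : ℤ) = (1 : ℤ) := by
    have : (2 * (k : ℚ)) = 1 := by rw [hk]; norm_num
    exact_mod_cast this
  omega

lemma two_dvd_coords (z : 𝓞 K11) (a b c : ℤ) (h : 2 * z = ofc a b c) :
    2 ∣ a ∧ 2 ∣ b ∧ 2 ∣ c := by
  -- `P = 1 + θ`, `P ^ 3 = 2 * u` with `u` a unit
  set P : 𝓞 K11 := 1 + th with hP
  set u : 𝓞 K11 := th + 2 * th ^ 2 with hu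
  set v : 𝓞 K11 := 13 - 11 * th + 7 * th ^ 2 with hv
  have huv : u * v = 1 := by
    rw [hu, hv]; linear_combination (14 * th - 1) * th_rel
  have hP3 : P ^ 3 = 2 * u := by
    rw [hP, hu]; linear_combination th_rel
  have key : ∀ w : 𝓞 K11, 2 * w ≠ P ^ 2 := by
    intro w hw
    refine half_not_integral (isUnit_iff_dvd_one.mpr ⟨w ^ 3 * v ^ 2, ?_⟩)
    have h4 : (8 : 𝓞 K11) * w ^ 3 = 4 * u ^ 2 := by
      linear_combination (P ^ 4 + 2 * w * P ^ 2 + 4 * w ^ 2) * hw + (P ^ 3 + 2 * u) * hP3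
    have h5 : (2 : 𝓞 K11) * w ^ 3 = u ^ 2 :=
      mul_left_cancel₀ (by norm_num : (4 : 𝓞 K11) ≠ 0) (by linear_combination h4)
    linear_combination -(v ^ 2) * h5 - (u * v + 1) * huv
  have hC : ∃ k, c = 2 * k ∨ c = 2 * k + 1 := ⟨c / 2, by omega⟩
  -- coordinates in the basis `1, P, P ^ 2`
  obtain ⟨A, hA⟩ : ∃ A : ℤ, A = a - b + c := ⟨_, rfl⟩
  obtain ⟨B, hB⟩ : ∃ B : ℤ, B = b - 2 * c := ⟨_, rfl⟩
  have hz : 2 * z = (A : 𝓞 K11) + (B : 𝓞 K11) * P + (c : 𝓞 K11) * P ^ 2 := by
    rw [h, hA, hB, hP, ofc]; push_cast; ring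
  have hA2 : 2 ∣ A := by
    by_contra hodd
    obtain ⟨k, hk⟩ : ∃ k, A = 2 * k + 1 := ⟨A / 2, by omega⟩
    rw [hk] at hz; push_cast at hz
    apply key (z * P ^ 2 - (B : 𝓞 K11) * u - (c : 𝓞 K11) * u * P - (k : 𝓞 K11) * P ^ 2)
    linear_combination P ^ 2 * hz + ((B : 𝓞 K11) + (c : 𝓞 K11) * P) * hP3
  have hB2 : 2 ∣ B := by
    by_contra hodd
    obtain ⟨k, hk⟩ : ∃ k, B = 2 * k + 1 := ⟨B / 2, by omega⟩
    obtain ⟨l, hl⟩ := hA2
    rw [hk, hl] at hz; push_cast at hz
    apply key (z * P - (l : 𝓞 K11) * P - (k : 𝓞 K11) * P ^ 2 - (c : 𝓞 K11) * u)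
    linear_combination P * hz + (c : 𝓞 K11) * hP3
  have hC2 : 2 ∣ c := by
    by_contra hodd
    obtain ⟨k, hk⟩ : ∃ k, c = 2 * k + 1 := ⟨c / 2, by omega⟩
    obtain ⟨l, hl⟩ := hA2
    obtain ⟨j, hj⟩ := hB2
    rw [hk, hl, hj] at hz; push_cast at hz
    apply key (z - (l : 𝓞 K11) - (j : 𝓞 K11) * P - (k : 𝓞 K11) * P ^ 2)
    linear_combination hz
  omega

lemma trace_thK (a b c : ℚ) :
    Algebra.trace ℚ K11 (algebraMap ℚ K11 a + algebraMap ℚ K11 b * thK
      + algebraMap ℚ K11 c * thK ^ 2) = 3 * a + b - c := by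
  let e : Fin pbK.dim ≃ Fin 3 := finCongr pbK_dim
  let B : Basis (Fin 3) ℚ K11 := pbK.basis.reindex e
  have hB : ∀ i, B i = thK ^ (i : ℕ) := by
    intro i
    simp only [B, Basis.reindex_apply, pbK.basis_eq_pow]
    simp [e, pbK, thK, finCongr]; rfl
  set z := algebraMap ℚ K11 a + algebraMap ℚ K11 b * thK + algebraMap ℚ K11 c * thK ^ 2 with hz
  have hr : ∀ (x : K11) (A B' C : ℚ), x = algebraMap ℚ K11 A + algebraMap ℚ K11 B' * thK
      + algebraMap ℚ K11 C * thK ^ 2 → ∀ i, B.repr x i = ![A, B', C] i := by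
    intro x A B' C hx i
    have : x = ∑ j, ![A, B', C] j • B j := by
      rw [hx]; simp [Fin.sum_univ_three, hB, Algebra.smul_def]
    rw [this, B.repr_sum_self]
  rw [Algebra.trace_eq_matrix_trace B, Matrix.trace, Fin.sum_univ_three]
  simp only [Matrix.diag, Algebra.leftMulMatrix_eq_repr_mul, hB]
  rw [hr (z * thK ^ ((0 : Fin 3) : ℕ)) a b c (by simp [hz]) 0,
    hr (z * thK ^ ((1 : Fin 3) : ℕ)) (-c) (a - c) (b + c) (by
      simp [hz, eq_ratCast]; linear_combination (c : K11) * thK_rel) 1,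
    hr (z * thK ^ ((2 : Fin 3) : ℕ)) (-(b + c)) (-(b + 2 * c)) (a + b) (by
      simp [hz, eq_ratCast]
      linear_combination ((b : K11) + (c : K11) + (c : K11) * thK) * thK_rel) 2]
  simp; ring

lemma trace_ofc (a b c : ℤ) : Algebra.trace ℤ (𝓞 K11) (ofc a b c) = 3 * a + b - c := by
  have h := Algebra.coe_trace_int (ofc a b c)
  have e : ((ofc a b c : 𝓞 K11) : K11) = algebraMap ℚ K11 a + algebraMap ℚ K11 b * thK
      + algebraMap ℚ K11 c * thK ^ 2 := by simp [ofc, coe_th]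
  rw [e, trace_thK] at h
  exact_mod_cast h

/-- Coordinates, and the numerical consequences of the discriminant computation. -/
lemma coords_and_discr :
    (∀ z : 𝓞 K11, ∃ a b c : ℤ, z = ofc a b c) ∧ discr K11 < 0 ∧ -44 ≤ discr K11 := by
  classical
  have hcard : Fintype.card (Free.ChooseBasisIndex ℤ (𝓞 K11)) = 3 := by
    rw [← finrank_eq_card_chooseBasisIndex, RingOfIntegers.rank, finrankK]
  let B : Basis (Fin 3) ℤ (𝓞 K11) :=
    (RingOfIntegers.basis K11).reindex (Fintype.equivFinOfCardEq hcard)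
  let v : Fin 3 → 𝓞 K11 := fun i => th ^ (i : ℕ)
  let M : Matrix (Fin 3) (Fin 3) ℤ := B.toMatrix v
  have hv : (B : Fin 3 → 𝓞 K11) = B := rfl
  have hvM : v = Matrix.vecMul B (M.map (algebraMap ℤ (𝓞 K11))) := by
    ext1 j
    have := B.sum_toMatrix_smul_self v j
    simp only [Matrix.vecMul, dotProduct, Matrix.map_apply, algebraMap_int_eq, eq_intCast]
    rw [← this]
    exact Finset.sum_congr rfl fun i _ => by rw [zsmul_eq_mul, mul_comm]
  have hd : Algebra.discr ℤ v = -44 := by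
    rw [Algebra.discr_def, Matrix.det_fin_three]
    simp only [Algebra.traceMatrix_apply, Algebra.traceForm_apply, v]
    have t0 : Algebra.trace ℤ (𝓞 K11) 1 = 3 := by simpa [ofc] using trace_ofc 1 0 0
    have t1 : Algebra.trace ℤ (𝓞 K11) th = 1 := by simpa [ofc] using trace_ofc 0 1 0
    have t2 : Algebra.trace ℤ (𝓞 K11) (th * th) = -1 := by
      simpa [ofc, pow_two] using trace_ofc 0 0 1
    have t3 : Algebra.trace ℤ (𝓞 K11) (th * th ^ 2) = -5 := by
      have : th * th ^ 2 = ofc (-1) (-1) 1 := by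
        simp [ofc]; linear_combination th_rel
      rw [this, trace_ofc]; norm_num
    have t4 : Algebra.trace ℤ (𝓞 K11) (th ^ 2 * th ^ 2) = -5 := by
      have : th ^ 2 * th ^ 2 = ofc (-1) (-2) 0 := by
        simp [ofc]; linear_combination (th + 1) * th_rel
      rw [this, trace_ofc]; norm_num
    have t2' : Algebra.trace ℤ (𝓞 K11) (th ^ 2) = -1 := by rw [pow_two, t2]
    simp only [Fin.val_zero, Fin.val_one, Fin.val_two, pow_zero, pow_one, one_mul, mul_one]
    rw [mul_comm (th ^ 2) th, t0, t1, t2, t2', t3, t4]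
    norm_num
  rw [hvM, Algebra.discr_of_matrix_vecMul, discr_eq_discr K11 B] at hd
  have hdet : M.det ≠ 0 := by rintro h; rw [h] at hd; simp at hd
  have hneg : discr K11 < 0 := by nlinarith [sq_nonneg M.det]
  have hM1 : 1 ≤ M.det ^ 2 := by have := sq_pos_of_ne_zero hdet; omega
  refine ⟨?_, hneg, by nlinarith⟩
  have hM2 : M.det ^ 2 ≤ 44 := by nlinarith
  have hMlt : -7 < M.det ∧ M.det < 7 := ⟨by nlinarith, by nlinarith⟩
  have hMcases : M.det = 1 ∨ M.det = -1 ∨ M.det = 2 ∨ M.det = -2 := by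
    have : M.det ^ 2 ∣ 44 := ⟨-discr K11, by linarith⟩
    obtain ⟨h1, h2⟩ := hMlt
    interval_cases h : M.det <;> omega
  intro z
  -- `det M` kills the quotient by `ℤ[θ]`
  have hadj : ∃ a b c : ℤ, (M.det : 𝓞 K11) * z = ofc a b c := by
    let r : Fin 3 → ℤ := fun i => B.repr z i
    let w : Fin 3 → ℤ := M.adjugate.mulVec r
    refine ⟨w 0, w 1, w 2, ?_⟩
    have hw : M.mulVec w = M.det • r := by
      rw [Matrix.mulVec_mulVec, Matrix.mul_adjugate, Matrix.smul_mulVec, Matrix.one_mulVec]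
    have e1 : ofc (w 0) (w 1) (w 2) = ∑ j, w j • v j := by
      simp [ofc, v, Fin.sum_univ_three, zsmul_eq_mul]
    rw [e1]
    have e2 : ∑ j, w j • v j = ∑ i, (M.mulVec w) i • B i := by
      simp only [← B.sum_toMatrix_smul_self v, Finset.smul_sum, Matrix.mulVec, dotProduct,
        Finset.sum_smul, smul_smul]
      rw [Finset.sum_comm]
      simp [M, mul_comm]
    rw [e2, hw]
    simp only [Pi.smul_apply, smul_eq_mul, mul_smul, ← Finset.smul_sum, r]
    rw [B.sum_repr, zsmul_eq_mul]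
  obtain ⟨a, b, c, h⟩ := hadj
  have hn : ∀ x y w : ℤ, -(ofc x y w) = ofc (-x) (-y) (-w) := by
    intro x y w; simp [ofc]; ring
  rcases hMcases with h1 | h1 | h1 | h1 <;> rw [h1] at h <;> push_cast at h
  · exact ⟨a, b, c, by simpa using h⟩
  · exact ⟨-a, -b, -c, by rw [← hn, ← h]; ring⟩
  · obtain ⟨⟨a', rfl⟩, ⟨b', rfl⟩, ⟨c', rfl⟩⟩ := two_dvd_coords z a b c h
    refine ⟨a', b', c', mul_left_cancel₀ (two_ne_zero' (𝓞 K11)) ?_⟩
    rw [h]; simp [ofc]; ring
  · obtain ⟨⟨a', rfl⟩, ⟨b', rfl⟩, ⟨c', rfl⟩⟩ :=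
      two_dvd_coords (-z) a b c (by rw [← h]; ring)
    refine ⟨-a', -b', -c', mul_left_cancel₀ (two_ne_zero' (𝓞 K11)) ?_⟩
    have : -(2 * z) = ofc (2 * a') (2 * b') (2 * c') := by rw [← h]; ring
    simp only [ofc] at this ⊢; push_cast at this ⊢; linear_combination -this

lemma exists_ofc (z : 𝓞 K11) : ∃ a b c : ℤ, z = ofc a b c := coords_and_discr.1 z

lemma nrComplexPlacesK : InfinitePlace.nrComplexPlaces K11 = 1 := by
  have h1 := NumberField.sign_discr K11
  have h2 := InfinitePlace.card_add_two_mul_card_eq_rank K11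
  rw [finrankK] at h2
  rw [Int.sign_eq_neg_one_of_neg coords_and_discr.2.1] at h1
  rcases Nat.eq_zero_or_pos (InfinitePlace.nrComplexPlaces K11) with h | h
  · rw [h] at h1; norm_num at h1
  · omega

lemma pidK : IsPrincipalIdealRing (𝓞 K11) := by
  apply RingOfIntegers.isPrincipalIdealRing_of_abs_discr_lt
  obtain ⟨h1, h2⟩ := coords_and_discr.2
  rw [nrComplexPlacesK, finrankK, abs_of_neg h1]
  have hd : ((-discr K11 : ℤ) : ℝ) ≤ 44 := by exact_mod_cast (show -discr K11 ≤ 44 by omega)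
  calc ((-discr K11 : ℤ) : ℝ) ≤ 44 := hd
    _ < _ := by
      norm_num [Nat.factorial]
      nlinarith [Real.pi_gt_three, Real.pi_gt_d2, mul_self_nonneg (Real.pi - 3.14)]

lemma rankK : Units.rank K11 = 1 := by
  have h2 := InfinitePlace.card_add_two_mul_card_eq_rank K11
  rw [finrankK, nrComplexPlacesK] at h2
  rw [Units.rank, InfinitePlace.card_eq_nrRealPlaces_add_nrComplexPlaces, nrComplexPlacesK]
  omega

end Fermat.Agent.X11
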