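import Fermat.Agent.X11.Tate

/-!
The irrational cusps of `X₁(11)` in the model `v² + v = u³ - u²`, as functions of
`η = ζ + ζ⁻¹`.
-/

set_option autoImplicit false

namespace Fermat.Agent.X11

variable {K : Type*} [Field K] [CharZero K]

/-- The polynomial satisfied by `ζ₁₁ + ζ₁₁⁻¹`. -/
def etaPoly (η : K) : K := η ^ 5 + η ^ 4 - 4 * η ^ 3 - 3 * η ^ 2 + 3 * η + 1

/-- First coordinate of the cusp. -/
def cuspU (η : K) : K := 2 * η ^ 4 - η ^ 3 - 5 * η ^ 2 + η + 2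

/-- Second coordinate of the cusp. -/
def cuspV (η : K) : K := 6 * η ^ 4 - 6 * η ^ 3 - 13 * η ^ 2 + 9 * η + 2

variable {η : K}

omit [CharZero K] in
lemma cusp_eq (h : etaPoly η = 0) :
    cuspV η ^ 2 + cuspV η = cuspU η ^ 3 - cuspU η ^ 2 := by
  simp only [etaPoly] at h
  simp only [cuspU, cuspV]
  linear_combination ((2) + (31) * η + (-36) * η ^ 2 + (2) * η ^ 3 + (-17) * η ^ 4 + (2) * η ^ 5 + (20) * η ^ 6 + (-8) * η ^ 7) * h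

lemma cuspU_ne_zero (h : etaPoly η = 0) : cuspU η ≠ 0 := by
  intro h0
  simp only [etaPoly] at h
  simp only [cuspU] at h0
  exact one_ne_zero (α := K) (by
    linear_combination ((-1) + (-6) * η + (1) * η ^ 2 + (2) * η ^ 3) * h0 - ((-3) + (-4) * η + (4) * η ^ 2) * h)

lemma cuspU_ne_one (h : etaPoly η = 0) : cuspU η - 1 ≠ 0 := by
  intro h0
  simp only [etaPoly] at h
  simp only [cuspU] at h0
  exact one_ne_zero (α := K) (by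
    linear_combination ((3) + (-1) * η + (-5) * η ^ 2 + (1) * η ^ 4) * h0 - ((2) + (-4) * η + (-3) * η ^ 2 + (2) * η ^ 3) * h)

lemma cuspS_ne_zero (h : etaPoly η = 0) : cuspU η + cuspV η ≠ 0 := by
  intro h0
  simp only [etaPoly] at h
  simp only [cuspU, cuspV] at h0
  exact one_ne_zero (α := K) (by
    linear_combination ((-11) + (3) * η + (10) * η ^ 2 + (-1) * η ^ 3 + (-2) * η ^ 4) * h0 - ((-45) + (37) * η + (22) * η ^ 2 + (-16) * η ^ 3) * h)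

lemma cusp_double (h : etaPoly η = 0) :
    cuspU (η ^ 2 - 2) = cuspV η / (cuspU η + cuspV η) ∧
      cuspV (η ^ 2 - 2) = -(cuspU η - 1) * cuspV η / (cuspU η + cuspV η) ^ 2 := by
  have hS := cuspS_ne_zero h
  rw [eq_div_iff hS, eq_div_iff (pow_ne_zero 2 hS)]
  simp only [etaPoly] at h
  simp only [cuspU, cuspV]
  constructor
  · linear_combination ((78) + (-43) * η + (-204) * η ^ 2 + (111) * η ^ 3 + (145) * η ^ 4 + (-78) * η ^ 5 + (-30) * η ^ 6 + (16) * η ^ 7) * h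
  · linear_combination ((1218) + (2437) * η + (-10263) * η ^ 2 + (-4950) * η ^ 3 + (23103) * η ^ 4 + (321) * η ^ 5 + (-20398) * η ^ 6 + (3824) * η ^ 7 + (7746) * η ^ 8 + (-2298) * η ^ 9 + (-1056) * η ^ 10 + (384) * η ^ 11) * h

lemma cusp_tateG (h : etaPoly η = 0) :
    tateG ((1 + cuspV η) * (1 + cuspV η / cuspU η) * cuspV η)
      ((1 + cuspV η / cuspU η) * cuspV η) = 0 := by
  have hX := cuspU_ne_zero h
  have heq := cusp_eq h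
  have hphi : cuspU η ^ 5 - 18 * cuspU η ^ 4 + 35 * cuspU η ^ 3 - 16 * cuspU η ^ 2
      - 2 * cuspU η + 1 = 0 := by
    simp only [etaPoly] at h
    simp only [cuspU]
    linear_combination ((-43) + (-13) * η + (462) * η ^ 2 + (56) * η ^ 3 + (-1682) * η ^ 4 + (99) * η ^ 5 + (2382) * η ^ 6 + (-654) * η ^ 7 + (-817) * η ^ 8 + (758) * η ^ 9 + (-691) * η ^ 10 + (-198) * η ^ 11 + (568) * η ^ 12 + (-80) * η ^ 13 + (-112) * η ^ 14 + (32) * η ^ 15) * h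
  have hR : 11 * cuspV η - (3 * cuspU η ^ 4 - 52 * cuspU η ^ 3 + 74 * cuspU η ^ 2
      - 17 * cuspU η - 10) = 0 := by
    simp only [etaPoly] at h
    simp only [cuspU, cuspV]
    linear_combination ((138) + (-66) * η + (-610) * η ^ 2 + (237) * η ^ 3 + (1016) * η ^ 4 + (-449) * η ^ 5 + (-65) * η ^ 6 + (221) * η ^ 7 + (-432) * η ^ 8 + (72) * η ^ 9 + (144) * η ^ 10 + (-48) * η ^ 11) * h
  generalize cuspU η = X at hX heq hphi hR ⊢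
  generalize cuspV η = Y at heq hR ⊢
  simp only [tateG]
  field_simp
  linear_combination (1 + (-1) * Y ^ 1 + 1 * Y ^ 2 + (-1) * Y ^ 3 + 1 * Y ^ 4 + (-1) * Y ^ 5 + 1 * Y ^ 6 + (-7) * X ^ 1 + 7 * X ^ 1 * Y ^ 1 + (-7) * X ^ 1 * Y ^ 2 + 7 * X ^ 1 * Y ^ 3 + (-7) * X ^ 1 * Y ^ 4 + (-4) * X ^ 1 * Y ^ 5 + 13 * X ^ 2 + (-14) * X ^ 2 * Y ^ 1 + 15 * X ^ 2 * Y ^ 2 + (-17) * X ^ 2 * Y ^ 3 + (-3) * X ^ 2 * Y ^ 4 + 2 * X ^ 3 + 6 * X ^ 3 * Y ^ 1 + (-15) * X ^ 3 * Y ^ 2 + 14 * X ^ 3 * Y ^ 3 + 1 * X ^ 3 * Y ^ 4 + (-38) * X ^ 4 + 16 * X ^ 4 * Y ^ 1 + 9 * X ^ 4 * Y ^ 2 + (-4) * X ^ 4 * Y ^ 3 + 57 * X ^ 5 + (-27) * X ^ 5 * Y ^ 1 + (-4) * X ^ 5 * Y ^ 2 + (-41) * X ^ 6 + 17 * X ^ 6 * Y ^ 1 + 1 * X ^ 6 * Y ^ 2 + 17 * X ^ 7 + (-4) * X ^ 7 * Y ^ 1 + (-5) * X ^ 8 + 1 * X ^ 9) * heq + ((-1) + 7 * X ^ 1 + (-12) * X ^ 2 + (-10) * X ^ 3 + 59 * X ^ 4 + (-77) * X ^ 5 + 31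 * X ^ 6 + 26 * X ^ 7 + (-39) * X ^ 8 + 20 * X ^ 9 + (-4) * X ^ 10) / 11 * hR + ((10/11) + (-3) * X + (10/11) * X ^ 2 + (104/11) * X ^ 3 + (-192/11) * X ^ 4 + (119/11) * X ^ 5 + (28/11) * X ^ 6 + (-86/11) * X ^ 7 + (52/11) * X ^ 8 + (-12/11) * X ^ 9) * hphi

end Fermat.Agent.X11
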