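import Fermat.Agent.X11.Square

/-!
The rational points of `v² + v = u³ - u²` (a model of `X₁(11)`).
-/

set_option autoImplicit false

namespace Fermat.Agent.X11

lemma homog_ne_zero {e m : ℤ} (hcop : IsCoprime m e) :
    4 * m ^ 3 - 4 * m ^ 2 * e ^ 2 + e ^ 6 ≠ 0 := by
  intro h
  have hm : IsUnit m :=
    (hcop.pow_right (n := 6)).isUnit_of_dvd'
      dvd_rfl ⟨-4 * m ^ 2 + 4 * m * e ^ 2, by linear_combination h⟩
  have h1 : e ^ 2 * ((e ^ 2) ^ 2 - 4 * m ^ 2) = -4 * m ^ 3 := by linear_combination h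
  rcases Int.isUnit_iff.mp hm with rfl | rfl
  all_goals
    norm_num at h1
    have hk : -3 < e ∧ e < 3 := by
      constructor <;> by_contra hc <;> nlinarith [sq_nonneg (e ^ 2 - 4), sq_nonneg e]
    obtain ⟨h2, h3⟩ := hk
    interval_cases e <;> norm_num at h1

lemma e2_ge {t M : ℤ} (htM : 0 ≤ t * M) (h : M ^ 2 ≤ t ^ 2) :
    2 * t ^ 4 ≤ 5 * (t * (t ^ 3 - 4 * t * M ^ 2 + 4 * M ^ 3)) := by
  rcases le_or_gt 0 t with h0 | h0
  · rcases h0.eq_or_lt with rfl | h0'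
    · simp
    · have hM : 0 ≤ M := nonneg_of_mul_nonneg_right htM h0'
      nlinarith [mul_nonneg (mul_nonneg h0 h0) (mul_nonneg hM (sq_nonneg (3 * M - 2 * t))),
        mul_nonneg (mul_nonneg h0 hM) (sq_nonneg (3 * M - 2 * t)),
        mul_nonneg (mul_nonneg h0 h0) (sq_nonneg (3 * M - 2 * t))]
  · have hM : 0 ≤ -M := by nlinarith
    have h0' : 0 ≤ -t := by linarith
    nlinarith [mul_nonneg (mul_nonneg h0' hM) (sq_nonneg (3 * M - 2 * t)),
      mul_nonneg (mul_nonneg h0' h0') (sq_nonneg (3 * M - 2 * t))]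

lemma descent_height {t M E m : ℤ}
    (hE : E = t * (t ^ 3 - 4 * t * M ^ 2 + 4 * M ^ 3)) (hm : m = M ^ 4 + t ^ 4 - 2 * t ^ 3 * M)
    (hR : 2 ≤ |t| ∨ 2 ≤ |M|) : |t| < max E |m| ∧ |M| < max E |m| := by
  have big : ∀ a b : ℤ, 2 ≤ |a| ∨ 2 ≤ |b| → |b| ≤ |a| → ∀ X : ℤ, a ^ 4 ≤ 4 * X →
      |a| < X ∧ |b| < X := by
    intro a b h hba X hX
    have ha : 2 ≤ |a| := by rcases h with h | h <;> omega
    have h3 : 8 * |a| ≤ a ^ 4 := by
      have e : a ^ 4 = |a| ^ 2 * |a| ^ 2 := by rw [sq_abs]; ring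
      nlinarith [mul_le_mul ha ha (by norm_num) (abs_nonneg a)]
    omega
  rcases le_total (t * M) 0 with h | h
  · -- opposite signs
    have h1 : t ^ 4 + M ^ 4 ≤ |m| := le_trans (by rw [hm]; nlinarith [sq_nonneg t]) (le_abs_self m)
    rcases le_total |M| |t| with hc | hc
    · obtain ⟨x, y⟩ := big t M hR hc |m| (by nlinarith [abs_nonneg m, sq_nonneg (M ^ 2)])
      exact ⟨lt_max_of_lt_right x, lt_max_of_lt_right y⟩
    · obtain ⟨x, y⟩ := big M t hR.symm hc |m| (by nlinarith [abs_nonneg m, sq_nonneg (t ^ 2)])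
      exact ⟨lt_max_of_lt_right y, lt_max_of_lt_right x⟩
  · rcases le_total |M| |t| with hc | hc
    · have := e2_ge h (sq_le_sq.mpr hc)
      obtain ⟨x, y⟩ := big t M hR hc E (by rw [hE]; nlinarith [sq_nonneg (t ^ 2)])
      exact ⟨lt_max_of_lt_left x, lt_max_of_lt_left y⟩
    · have hsq := sq_le_sq.mpr hc
      have : M ^ 4 ≤ 4 * max E |m| := by
        have h2 : 0 ≤ M ^ 2 - t ^ 2 := by linarith
        rcases le_or_gt (M ^ 2) (2 * (t * M)) with hh | hh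
        · have : M ^ 4 ≤ 4 * E := by
            rw [hE]
            nlinarith [mul_nonneg h h2, mul_nonneg (sub_nonneg.mpr hh) h2,
              mul_nonneg (sub_nonneg.mpr hh) (sq_nonneg M), sq_nonneg (t ^ 2), sq_nonneg (M - t)]
          linarith [le_max_left E |m|]
        · have : M ^ 4 ≤ 4 * |m| := by
            refine le_trans ?_ (mul_le_mul_of_nonneg_left (le_abs_self m) (by norm_num))
            rw [hm]
            nlinarith [mul_nonneg (sub_nonneg.mpr hh.le) (sq_nonneg M),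
              mul_nonneg h h2, sq_nonneg (t ^ 2)]
          linarith [le_max_right E |m|]
      obtain ⟨x, y⟩ := big M t hR.symm hc _ this
      exact ⟨y, x⟩

lemma sq_split {t g e : ℤ} (h : e ^ 2 = t * g) (hcop : IsCoprime t g) (ht : t ≠ 0) :
    ∃ ε a h' : ℤ, (ε = 1 ∨ ε = -1) ∧ t = ε * a ^ 2 ∧ g = ε * h' ^ 2 := by
  obtain ⟨a, ha⟩ := Int.sq_of_isCoprime hcop h.symm
  obtain ⟨ε, hε, hta⟩ : ∃ ε : ℤ, (ε = 1 ∨ ε = -1) ∧ t = ε * a ^ 2 := by
    rcases ha with ha | ha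
    · exact ⟨1, Or.inl rfl, by linarith⟩
    · exact ⟨-1, Or.inr rfl, by linarith⟩
  have hε2 : ε * ε = 1 := by rcases hε with rfl | rfl <;> norm_num
  have ha0 : a ≠ 0 := fun h0 => ht (by rw [hta, h0]; ring)
  obtain ⟨h', hh⟩ : a ∣ e :=
    (Int.pow_dvd_pow_iff two_ne_zero).mp ⟨ε * g, by rw [h, hta]; ring⟩
  refine ⟨ε, a, h', hε, hta, mul_left_cancel₀ (pow_ne_zero 2 ha0) ?_⟩
  have h2 : e ^ 2 = ε * a ^ 2 * g := by rw [h, hta]
  rw [hh] at h2
  linear_combination -ε * h2 - a ^ 2 * g * hε2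

/-- The quartic splitting. -/
lemma quartic_split {t s e : ℤ} (hts : IsCoprime t s)
    (h : e ^ 2 = t * (t ^ 3 - 4 * t ^ 2 * s + 8 * t * s ^ 2 - 4 * s ^ 3)) (ht : t ≠ 0) :
    ∃ ε a h' : ℤ, (ε = 1 ∨ ε = -1) ∧ t = ε * a ^ 2 ∧
      t ^ 3 - 4 * t ^ 2 * s + 8 * t * s ^ 2 - 4 * s ^ 3 = ε * h' ^ 2 := by
  rcases Int.even_or_odd' t with ⟨t', rfl | rfl⟩
  · -- `t` even
    obtain ⟨g', hg'⟩ : ∃ g', g' = 2 * t' ^ 3 - 4 * t' ^ 2 * s + 4 * t' * s ^ 2 - s ^ 3 := ⟨_, rfl⟩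
    have he : 2 ∣ e := Int.prime_two.dvd_of_dvd_pow ⟨t' * ((2 * t') ^ 3 - 4 * (2 * t') ^ 2 * s
      + 8 * (2 * t') * s ^ 2 - 4 * s ^ 3), by rw [h]; ring⟩
    obtain ⟨e1, rfl⟩ := he
    have h1 : e1 ^ 2 = 2 * t' * g' := by
      have : 4 * e1 ^ 2 = 4 * (2 * t' * g') := by rw [hg']; linear_combination h
      linarith
    have hs : IsCoprime (2 : ℤ) s := hts.of_mul_left_left
    have ht's : IsCoprime t' s := hts.of_mul_left_right
    have hc : IsCoprime (2 * t') g' := by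
      apply IsCoprime.mul_left
      · rw [hg', show 2 * t' ^ 3 - 4 * t' ^ 2 * s + 4 * t' * s ^ 2 - s ^ 3
          = -(s ^ 3) + 2 * (t' ^ 3 - 2 * t' ^ 2 * s + 2 * t' * s ^ 2) by ring]
        exact (hs.pow_right.neg_right).add_mul_left_right _
      · rw [hg', show 2 * t' ^ 3 - 4 * t' ^ 2 * s + 4 * t' * s ^ 2 - s ^ 3
          = -(s ^ 3) + t' * (2 * t' ^ 2 - 4 * t' * s + 4 * s ^ 2) by ring]
        exact (ht's.pow_right.neg_right).add_mul_left_right _
    obtain ⟨ε, a, h', hε, h2, h3⟩ := sq_split h1 hc ht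
    exact ⟨ε, a, 2 * h', hε, h2, by rw [hg'] at h3; linear_combination 4 * h3⟩
  · refine sq_split h ?_ ht
    rw [show (2 * t' + 1) ^ 3 - 4 * (2 * t' + 1) ^ 2 * s + 8 * (2 * t' + 1) * s ^ 2 - 4 * s ^ 3
      = -(2 ^ 2 * s ^ 3) + (2 * t' + 1) * ((2 * t' + 1) ^ 2 - 4 * (2 * t' + 1) * s + 8 * s ^ 2)
      by ring]
    refine (IsCoprime.neg_right ?_).add_mul_left_right _
    exact IsCoprime.mul_right (IsCoprime.pow_right ⟨1, -t', by ring⟩) hts.pow_right

theorem descent : ∀ (H : ℕ) (e m n : ℤ), IsCoprime m e → e ≠ 0 →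
    n ^ 2 = 4 * m ^ 3 - 4 * m ^ 2 * e ^ 2 + e ^ 6 → max (e.natAbs ^ 2) m.natAbs = H →
    m = 0 ∨ m = e ^ 2 := by
  intro H
  induction H using Nat.strong_induction_on with
  | _ H ih =>
  intro e m n hcop he heq hH
  have hn : n ≠ 0 := fun h0 => homog_ne_zero hcop (by rw [← heq, h0]; ring)
  obtain ⟨p, q, r, h1, h2, h3⟩ := gamma_square hcop heq hn
  obtain ⟨w, hw⟩ : ∃ w, w = q + 2 * r := ⟨_, rfl⟩
  obtain ⟨k, hk⟩ : ∃ k, k = p + w - 3 * r := ⟨_, rfl⟩
  have hwk : w * k = -(r ^ 2) := by subst hw hk; linear_combination h3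
  have hwkc : IsCoprime w k := by
    rw [Int.isCoprime_iff_nat_coprime]
    by_contra hc
    obtain ⟨l, hl, hlw, hlk⟩ := Nat.Prime.not_coprime_iff_dvd.mp hc
    have hlp : Prime (l : ℤ) := Nat.prime_iff_prime_int.mp hl
    rw [← Int.natCast_dvd] at hlw hlk
    have hr : (l : ℤ) ∣ r :=
      hlp.dvd_of_dvd_pow (n := 2) (by rw [← dvd_neg, ← hwk]; exact hlw.mul_right k)
    have hq : (l : ℤ) ∣ q := by
      rw [show q = w - 2 * r by linarith]; exact dvd_sub hlw (hr.mul_left 2)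
    have hp : (l : ℤ) ∣ p := by
      rw [show p = k - w + 3 * r by linarith]; exact dvd_add (dvd_sub hlk hlw) (hr.mul_left 3)
    have hm' : (l : ℤ) ∣ m := by
      rw [h2, show 2 * p * r + q ^ 2 + 2 * q * r = r * (2 * p + 2 * q) + q * q by ring]
      exact dvd_add (hr.mul_right _) (hq.mul_right _)
    have he' : (l : ℤ) ∣ e := hlp.dvd_of_dvd_pow (n := 2) (by
      rw [h1, show p ^ 2 - 2 * p * r - q ^ 2 - 4 * q * r - r ^ 2
        = p * p - q * q - r * (2 * p + 4 * q + r) by ring]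
      exact dvd_sub (dvd_sub (hp.mul_right _) (hq.mul_right _)) (hr.mul_right _))
    exact hlp.not_isUnit (hcop.isUnit_of_dvd' hm' he')
  obtain ⟨s, hs⟩ := Int.sq_of_isCoprime hwkc.neg_right (c := r) (by linear_combination -hwk)
  obtain ⟨σ, hσ, hws⟩ : ∃ σ : ℤ, σ * σ = 1 ∧ w = σ * s ^ 2 := by
    rcases hs with hs | hs
    · exact ⟨1, by norm_num, by linarith⟩
    · exact ⟨-1, by norm_num, by linarith⟩
  rcases eq_or_ne s 0 with rfl | hs0
  · left
    have hw0 : w = 0 := by rw [hws]; ring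
    have hr0 : r = 0 := by
      rw [hw0] at hwk
      exact (pow_eq_zero_iff two_ne_zero).mp (by linarith : r ^ 2 = 0)
    have hq0 : q = 0 := by linarith
    rw [h2, hr0, hq0]; ring
  obtain ⟨t, ht⟩ : s ∣ σ * r :=
    (Int.pow_dvd_pow_iff two_ne_zero).mp ⟨-(σ * k), by
      rw [mul_pow]
      linear_combination σ * σ * hwk - σ * σ * k * hws - σ * k * s ^ 2 * hσ⟩
  have hr : r = σ * (s * t) := by rw [← ht]; linear_combination -r * hσ
  have hkt : k = -(σ * t ^ 2) := by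
    apply mul_left_cancel₀ (pow_ne_zero 2 hs0)
    rw [hws, hr] at hwk
    linear_combination σ * hwk - s ^ 2 * k * hσ + (-σ * s ^ 2 * t ^ 2) * hσ
  have hts : IsCoprime t s := by
    have := hwkc
    rw [hws, hkt] at this
    have h' := this.neg_right
    rw [neg_neg] at h'
    exact ((IsCoprime.pow_iff (m := 2) (n := 2) two_pos two_pos).mp
      (h'.of_mul_left_right.of_mul_right_right)).symm
  have hq : q = σ * (s ^ 2 - 2 * (s * t)) := by
    rw [show q = w - 2 * r by linarith, hws, hr]; ring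
  have hp : p = σ * (-t ^ 2 - s ^ 2 + 3 * (s * t)) := by
    rw [show p = k - w + 3 * r by linarith, hws, hr, hkt]; ring
  have hE : e ^ 2 = t * (t ^ 3 - 4 * t ^ 2 * s + 8 * t * s ^ 2 - 4 * s ^ 3) := by
    rw [h1, hp, hq, hr]
    linear_combination (t * (t ^ 3 - 4 * t ^ 2 * s + 8 * t * s ^ 2 - 4 * s ^ 3)) * hσ
  have hM : m = s ^ 4 - 4 * s ^ 3 * t + 6 * s ^ 2 * t ^ 2 - 2 * s * t ^ 3 := by
    rw [h2, hp, hq, hr]
    linear_combination (s ^ 4 - 4 * s ^ 3 * t + 6 * s ^ 2 * t ^ 2 - 2 * s * t ^ 3) * hσ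
  have ht0 : t ≠ 0 := by
    rintro rfl; simp at hE; exact he hE
  obtain ⟨ε, a, h', hε, hta, hg⟩ := quartic_split hts hE ht0
  obtain ⟨M, hMdef⟩ : ∃ M, M = t - s := ⟨_, rfl⟩
  have hs' : s = t - M := by linarith
  rw [hs'] at hE hM hg hts
  by_cases hR : 2 ≤ |t| ∨ 2 ≤ |M|
  · obtain ⟨hlt, hlM⟩ := descent_height (E := e ^ 2) (m := m) (t := t) (M := M)
      (by rw [hE]; ring) (by rw [hM]; ring) hR
    have hε2 : ε * ε = 1 := by rcases hε with rfl | rfl <;> norm_num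
    have ha2 : a ^ 2 = ε * t := by rw [hta]; linear_combination -a ^ 2 * hε2
    have ha : a ≠ 0 := fun h0 => ht0 (by rw [hta, h0]; ring)
    have hc : IsCoprime (ε * M) a := by
      apply IsCoprime.mul_left
      · rcases hε with rfl | rfl
        · exact isCoprime_one_left
        · exact isCoprime_one_left.neg_left
      · have hMt : IsCoprime M t := by
          have := (IsCoprime.add_mul_left_right hts.neg_right 1).symm
          simpa using this
        rw [hta] at hMt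
        exact (IsCoprime.pow_right_iff two_pos).mp hMt.of_mul_right_right
    have heq' : h' ^ 2 = 4 * (ε * M) ^ 3 - 4 * (ε * M) ^ 2 * a ^ 2 + a ^ 6 := by
      rw [show a ^ 6 = (a ^ 2) ^ 3 by ring, ha2]
      linear_combination -ε * hg - h' ^ 2 * hε2
        - ε * (t ^ 3 - 4 * t * M ^ 2 + 4 * M ^ 3) * hε2
    have habs : |ε * M| = |M| := by rcases hε with rfl | rfl <;> simp
    have hat : a ^ 2 = |t| := by
      rw [ha2]
      rcases hε with rfl | rfl
      · rw [one_mul] at ha2 ⊢; rw [abs_of_nonneg (by rw [← ha2]; positivity)]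
      · rw [abs_of_nonpos (by nlinarith [sq_nonneg a])]; ring
    have hlt' : max (a.natAbs ^ 2) (ε * M).natAbs < H := by
      zify
      rw [← hH]; push_cast
      simp only [sq_abs]
      rw [hat, habs]
      exact max_lt hlt hlM
    rcases ih _ hlt' a (ε * M) h' hc ha heq' rfl with h0 | h0
    · exfalso
      have hM0 : M = 0 := by rcases hε with rfl | rfl <;> simpa using h0
      subst hM0
      have : IsUnit t := by simpa using hts.isUnit_of_dvd' dvd_rfl (by simp)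
      rcases Int.isUnit_iff.mp this with rfl | rfl <;> simp at hR
    · exfalso
      have hMt : M = t := by
        have h4 : ε * M = ε * t := by rw [h0, ha2]
        rcases hε with rfl | rfl <;> linarith
      subst hMt
      rw [sub_self] at hts
      rcases Int.isUnit_iff.mp (isCoprime_zero_right.mp hts) with rfl | rfl <;> simp at hR
  · push Not at hR
    have h1t : -1 ≤ t ∧ t ≤ 1 := by have := abs_lt.mp hR.1; omega
    have h1M : -1 ≤ M ∧ M ≤ 1 := by have := abs_lt.mp hR.2; omega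
    obtain ⟨a1, a2⟩ := h1t
    obtain ⟨b1, b2⟩ := h1M
    interval_cases t <;> interval_cases M <;>
      first
        | exact absurd rfl ht0
        | (left; linarith)
        | (right; linarith)
        | linarith [sq_nonneg e]

/-- The rational points of `v² + v = u³ - u²`. -/
theorem rat_points {u v : ℚ} (h : v ^ 2 + v = u ^ 3 - u ^ 2) :
    (u = 0 ∨ u = 1) ∧ (v = 0 ∨ v = -1) := by
  have hu : u = 0 ∨ u = 1 := by
    obtain ⟨X, hX⟩ : ∃ X : ℚ, X = 4 * u := ⟨_, rfl⟩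
    obtain ⟨Y, hY⟩ : ∃ Y : ℚ, Y = 4 * (2 * v + 1) := ⟨_, rfl⟩
    have hXY : Y ^ 2 = X ^ 3 - 4 * X ^ 2 + 16 := by subst hX hY; linear_combination 64 * h
    -- denominators
    have hd : (Y.den : ℤ) ^ 2 = (X.den : ℤ) ^ 3 := by
      have hq : (X.den : ℚ) ≠ 0 := by exact_mod_cast X.den_nz
      have hYd : (Y.den : ℚ) ≠ 0 := by exact_mod_cast Y.den_nz
      have h1 : (Y.num : ℤ) ^ 2 * (X.den : ℤ) ^ 3 =
          (X.num ^ 3 - 4 * X.num ^ 2 * X.den + 16 * (X.den : ℤ) ^ 3) * (Y.den : ℤ) ^ 2 := by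
        have e1 : Y * Y.den = Y.num := Rat.mul_den_eq_num Y
        have e2 : X * X.den = X.num := Rat.mul_den_eq_num X
        have : ((Y.num : ℚ)) ^ 2 * (X.den : ℚ) ^ 3 =
            ((X.num : ℚ) ^ 3 - 4 * (X.num : ℚ) ^ 2 * X.den + 16 * (X.den : ℚ) ^ 3) *
              (Y.den : ℚ) ^ 2 := by
          rw [← e1, ← e2]; linear_combination (Y.den : ℚ) ^ 2 * (X.den : ℚ) ^ 3 * hXY
        exact_mod_cast this
      have cY : IsCoprime (Y.num : ℤ) (Y.den : ℤ) := by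
        rw [Int.isCoprime_iff_nat_coprime, Int.natAbs_natCast]; exact Y.reduced
      have cX : IsCoprime (X.num : ℤ) (X.den : ℤ) := by
        rw [Int.isCoprime_iff_nat_coprime, Int.natAbs_natCast]; exact X.reduced
      have cF : IsCoprime ((X.den : ℤ) ^ 3)
          (X.num ^ 3 - 4 * X.num ^ 2 * X.den + 16 * (X.den : ℤ) ^ 3) := by
        rw [show X.num ^ 3 - 4 * X.num ^ 2 * X.den + 16 * (X.den : ℤ) ^ 3
          = X.num ^ 3 + (X.den : ℤ) * (16 * (X.den : ℤ) ^ 2 - 4 * X.num ^ 2) by ring]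
        exact ((cX.symm.pow_right).add_mul_left_right _).pow_left
      apply Int.dvd_antisymm (by positivity) (by positivity)
      · exact (cY.symm.pow (m := 2) (n := 2)).dvd_of_dvd_mul_left
          ⟨X.num ^ 3 - 4 * X.num ^ 2 * X.den + 16 * (X.den : ℤ) ^ 3, by rw [h1]; ring⟩
      · exact cF.dvd_of_dvd_mul_left ⟨Y.num ^ 2, by linear_combination -h1⟩
    obtain ⟨E, hE⟩ : ∃ E : ℤ, (X.den : ℤ) = E ^ 2 := by
      obtain ⟨E, hE⟩ : (X.den : ℤ) ∣ (Y.den : ℤ) :=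
        (Int.pow_dvd_pow_iff two_ne_zero).mp ⟨X.den, by rw [hd]; ring⟩
      refine ⟨E, mul_left_cancel₀ (pow_ne_zero 2 ((by exact_mod_cast X.den_nz) : (X.den : ℤ) ≠ 0)) ?_⟩
      rw [hE] at hd; linear_combination -hd
    obtain ⟨M, hMd⟩ : ∃ M : ℤ, M = X.num := ⟨_, rfl⟩
    have hE0 : E ≠ 0 := fun h0 => X.den_nz (by rw [h0] at hE; simp at hE)
    have hXv : X = (M : ℚ) / (E : ℚ) ^ 2 := by
      rw [hMd, show (E : ℚ) ^ 2 = (X.den : ℚ) by exact_mod_cast hE.symm, Rat.num_div_den]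
    have cME : IsCoprime M E := by
      have cX : IsCoprime (X.num : ℤ) (X.den : ℤ) := by
        rw [Int.isCoprime_iff_nat_coprime, Int.natAbs_natCast]; exact X.reduced
      rw [hE, ← hMd] at cX
      exact (IsCoprime.pow_right_iff two_pos).mp cX
    have hE0' : (E : ℚ) ≠ 0 := by exact_mod_cast hE0
    obtain ⟨N, hN⟩ : ∃ N : ℤ, N ^ 2 = M ^ 3 - 4 * M ^ 2 * E ^ 2 + 16 * E ^ 6 := by
      have hsq : IsSquare ((M ^ 3 - 4 * M ^ 2 * E ^ 2 + 16 * E ^ 6 : ℤ) : ℚ) := by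
        refine ⟨Y * (E : ℚ) ^ 3, ?_⟩
        rw [show Y * (E : ℚ) ^ 3 * (Y * (E : ℚ) ^ 3) = Y ^ 2 * (E : ℚ) ^ 6 by ring, hXY, hXv]
        push_cast; field_simp
      obtain ⟨N, hN⟩ := Rat.isSquare_intCast_iff.mp hsq
      exact ⟨N, by rw [hN]; ring⟩
    -- pass to `u = m / e ^ 2`
    obtain ⟨e, m, n, hc, he, heq, hum⟩ : ∃ e m n : ℤ, IsCoprime m e ∧ e ≠ 0 ∧
        n ^ 2 = 4 * m ^ 3 - 4 * m ^ 2 * e ^ 2 + e ^ 6 ∧ u * (e : ℚ) ^ 2 = m := by
      have hu4 : u * 4 * (E : ℚ) ^ 2 = M := by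
        rw [show u * 4 = X by rw [hX]; ring, hXv]; field_simp
      rcases Int.even_or_odd' M with ⟨M1, rfl | rfl⟩
      · obtain ⟨N1, rfl⟩ : 2 ∣ N := Int.prime_two.dvd_of_dvd_pow (n := 2)
          ⟨4 * M1 ^ 3 - 8 * M1 ^ 2 * E ^ 2 + 8 * E ^ 6, by rw [hN]; ring⟩
        obtain ⟨N2, rfl⟩ : 2 ∣ N1 := Int.prime_two.dvd_of_dvd_pow (n := 2)
          ⟨M1 ^ 3 - 2 * M1 ^ 2 * E ^ 2 + 2 * E ^ 6, by linarith⟩
        obtain ⟨M2, rfl⟩ : 2 ∣ M1 := Int.prime_two.dvd_of_dvd_pow (n := 3)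
          ⟨N2 ^ 2 + M1 ^ 2 * E ^ 2 - E ^ 6, by linarith⟩
        refine ⟨E, M2, N2, cME.of_mul_left_right.of_mul_left_right, hE0, by linarith, ?_⟩
        push_cast at hu4; linear_combination hu4 / 4
      · refine ⟨2 * E, 2 * M1 + 1, 2 * N, ?_, by simp [hE0], by rw [mul_pow, hN]; ring, ?_⟩
        · exact IsCoprime.mul_right ⟨1, -M1, by ring⟩ cME
        · push_cast at hu4 ⊢; linear_combination hu4
    rcases descent _ e m n hc he heq rfl with rfl | rfl
    · left; simpa [he] using hum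
    · right
      push_cast at hum
      exact mul_right_cancel₀ (pow_ne_zero 2 ((by exact_mod_cast he) : (e : ℚ) ≠ 0)) (by
        rw [one_mul]; exact hum)
  refine ⟨hu, ?_⟩
  have hv : v * (v + 1) = 0 := by rcases hu with rfl | rfl <;> linear_combination h
  rcases mul_eq_zero.mp hv with hv | hv
  · exact Or.inl hv
  · exact Or.inr (by linarith)

end Fermat.Agent.X11
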