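import Mathlib

/-!
Tate normal form parameters of a point of order `11`, and the resulting point on
`v² + v = u³ - u²`.
-/

set_option autoImplicit false

namespace Fermat.Agent.X11

open WeierstrassCurve WeierstrassCurve.Affine WeierstrassCurve.Affine.Point

section

variable {K : Type*} [Field K] (W : WeierstrassCurve K) (x y : K)

/-- Coefficient `a₃` after moving `(x, y)` to the origin. -/
def tA3 : K := W.a₃ + W.a₁ * x + 2 * y

/-- Slope of the tangent at `(x, y)`. -/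
def tL : K := (3 * x ^ 2 + 2 * W.a₂ * x + W.a₄ - W.a₁ * y) / tA3 W x y

/-- Coefficient `a₁` after making the tangent horizontal. -/
def tA1 : K := W.a₁ + 2 * tL W x y

/-- Coefficient `a₂` after making the tangent horizontal. -/
def tA2 : K := W.a₂ + 3 * x - tL W x y * W.a₁ - tL W x y ^ 2

/-- Tate parameter `b`. -/
def tB : K := -tA2 W x y ^ 3 / tA3 W x y ^ 2

/-- Tate parameter `c`. -/
def tC : K := 1 - tA1 W x y * tA2 W x y / tA3 W x y

/-- Scaling factor. -/
def tU : K := tA3 W x y / tA2 W x y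

/-- `x`-coordinate of the point with normal form coordinate `X`. -/
def tPX (X : K) : K := x + tU W x y ^ 2 * X

/-- `y`-coordinate of the point with normal form coordinates `(X, Y)`. -/
def tPY (X Y : K) : K := y + tU W x y ^ 3 * Y + tL W x y * tU W x y ^ 2 * X

/-- First coordinate on `v² + v = u³ - u²`. -/
def tX : K := (tB W x y / tC W x y - 1) / (tC W x y / (tB W x y / tC W x y - 1) - 1)

/-- Second coordinate on `v² + v = u³ - u²`. -/
def tY : K := tB W x y / tC W x y - 1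

/-- The nonvanishing factor of the discriminant of the Tate normal form. -/
def tateG (b c : K) : K := 16 * b ^ 2 - 8 * b * c ^ 2 - 20 * b * c + b - c * (1 - c) ^ 3

end

section

variable {K : Type*} [Field K] [DecidableEq K] {W : WeierstrassCurve K} {x y : K}

omit [DecidableEq K] in
lemma tA3_eq (x y : K) : tA3 W x y = y - W.toAffine.negY x y := by
  simp [tA3, Affine.negY]; ring

lemma add_tPoint {X Y : K} (hA2 : tA2 W x y ≠ 0) (hA3 : tA3 W x y ≠ 0) (hX : X ≠ 0)
    (h : W.toAffine.Nonsingular x y)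
    (hP : W.toAffine.Nonsingular (tPX W x y X) (tPY W x y X Y)) :
    let X' := (Y / X) ^ 2 + (1 - tC W x y) * (Y / X) + tB W x y - X
    let Y' := -(Y / X * X') - (1 - tC W x y) * X' + tB W x y
    ∃ h' : W.toAffine.Nonsingular (tPX W x y X') (tPY W x y X' Y'),
      Point.some _ _ h + Point.some _ _ hP = Point.some _ _ h' := by
  intro X' Y'
  have hu : tU W x y ≠ 0 := div_ne_zero hA3 hA2
  have hx : x ≠ tPX W x y X := by
    simp [tPX, hu, hX]
  have hs : W.toAffine.slope x (tPX W x y X) y (tPY W x y X Y)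
      = tL W x y + tU W x y * (Y / X) := by
    rw [slope_of_X_ne hx]
    simp only [tPX, tPY]
    field_simp
    ring
  have hX' : W.toAffine.addX x (tPX W x y X)
      (W.toAffine.slope x (tPX W x y X) y (tPY W x y X Y)) = tPX W x y X' := by
    rw [hs, Affine.addX]
    simp only [tPX, X', tB, tC, tU, tA1]
    field_simp
    simp only [tA2]
    ring
  have hY' : W.toAffine.addY x (tPX W x y X) y
      (W.toAffine.slope x (tPX W x y X) y (tPY W x y X Y)) = tPY W x y X' Y' := by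
    rw [Affine.addY, Affine.negAddY, hX', hs, Affine.negY]
    simp only [tPX, tPY, Y']
    have e1 : tU W x y ^ 2 * tA1 W x y = tU W x y ^ 3 * (1 - tC W x y) := by
      simp only [tC, tU]; field_simp; ring
    have e2 : tU W x y ^ 3 * tB W x y = -tA3 W x y := by
      simp only [tB, tU]; field_simp
    rw [tA3] at e2
    rw [tA1] at e1
    linear_combination -X' * e1 - e2
  have hns := nonsingular_add h hP (fun hh => hx hh.1)
  rw [hX', hY'] at hns
  refine ⟨hns, ?_⟩
  rw [add_some (fun hh => hx hh.1)]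
  simp only [Point.some.injEq]
  exact ⟨hX', hY'⟩

lemma double_tPoint (hA2 : tA2 W x y ≠ 0) (hA3 : tA3 W x y ≠ 0) (h : W.toAffine.Nonsingular x y) :
    ∃ h' : W.toAffine.Nonsingular (tPX W x y (tB W x y))
        (tPY W x y (tB W x y) (tB W x y * tC W x y)),
      Point.some _ _ h + Point.some _ _ h = Point.some _ _ h' := by
  have hy : y ≠ W.toAffine.negY x y := by
    rw [← sub_ne_zero, ← tA3_eq]; exact hA3
  have hs : W.toAffine.slope x x y y = tL W x y := by
    rw [slope_of_Y_ne rfl hy, tL, tA3_eq]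
  have hX' : W.toAffine.addX x x (W.toAffine.slope x x y y) = tPX W x y (tB W x y) := by
    rw [hs, Affine.addX]
    simp only [tPX, tB, tU]
    field_simp
    simp only [tA2]
    ring
  have hY' : W.toAffine.addY x x y (W.toAffine.slope x x y y)
      = tPY W x y (tB W x y) (tB W x y * tC W x y) := by
    rw [Affine.addY, Affine.negAddY, hX', hs, Affine.negY]
    simp only [tPX, tPY]
    have e1 : tU W x y ^ 2 * tA1 W x y = tU W x y ^ 3 * (1 - tC W x y) := by
      simp only [tC, tU]; field_simp; ring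
    have e2 : tU W x y ^ 3 * tB W x y = -tA3 W x y := by
      simp only [tB, tU]; field_simp
    rw [tA3] at e2
    rw [tA1] at e1
    linear_combination -tB W x y * e1 - e2
  have hns := nonsingular_add h h (fun hh => hy hh.2)
  rw [hX', hY'] at hns
  refine ⟨hns, ?_⟩
  rw [add_some (fun hh => hy hh.2)]
  simp only [Point.some.injEq]
  exact ⟨hX', hY'⟩

/-- Everything we need about a point of order `11`. -/
structure TateData (W : WeierstrassCurve K) (x y : K) : Prop where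
  A2 : tA2 W x y ≠ 0
  A3 : tA3 W x y ≠ 0
  c0 : tC W x y ≠ 0
  Y0 : tY W x y ≠ 0
  Y1 : 1 + tY W x y ≠ 0
  X0 : tX W x y ≠ 0
  X1 : tX W x y - 1 ≠ 0
  XY : tX W x y + tY W x y ≠ 0
  eq : tY W x y ^ 2 + tY W x y = tX W x y ^ 3 - tX W x y ^ 2
  b_eq : tB W x y =
    (1 + tY W x y) * (1 + tY W x y / tX W x y) * tY W x y
  c_eq : tC W x y = (1 + tY W x y / tX W x y) * tY W x y

theorem tateData_of_order_eleven (h : W.toAffine.Nonsingular x y)
    (h11 : (11 : ℕ) • Point.some _ _ h = (0 : W.toAffine.Point)) : TateData W x y := by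
  set T : W.toAffine.Point := Point.some _ _ h with hT
  have hT0 : T ≠ 0 := some_ne_zero h
  have : Fact (Nat.Prime 11) := ⟨by norm_num⟩
  have hord : addOrderOf T = 11 :=
    addOrderOf_eq_prime h11 hT0
  have hk : ∀ k : ℕ, 0 < k → k < 11 → k • T ≠ 0 := fun k hk0 hk1 hk2 => by
    have := Nat.le_of_dvd hk0 (addOrderOf_dvd_of_nsmul_eq_zero hk2)
    omega
  -- `k • T` has `x`-coordinate different from that of `T`
  have hne : ∀ (k : ℕ) (x' y' : K) (h' : W.toAffine.Nonsingular x' y'), 2 ≤ k → k ≤ 9 →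
      Point.some _ _ h' = k • T → x' ≠ x := by
    intro k x' y' h' hk1 hk2 he hx
    rcases (X_eq_iff (h₁ := h') (h₂ := h)).mp hx with h0 | h0
    · rw [he] at h0
      exact hk (k - 1) (by omega) (by omega) (add_right_cancel (b := T) (by
        rw [← succ_nsmul, zero_add, Nat.sub_add_cancel (by omega : 1 ≤ k), h0]))
    · rw [he] at h0
      exact hk (k + 1) (by omega) (by omega) (by rw [succ_nsmul, h0, hT, neg_add_cancel])
  have hA3 : tA3 W x y ≠ 0 := by
    rw [tA3_eq, sub_ne_zero]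
    intro hy
    exact hk 2 (by norm_num) (by norm_num) (by rw [two_nsmul, hT, add_self_of_Y_eq hy])
  have hA2 : tA2 W x y ≠ 0 := by
    intro h2
    have hy : y ≠ W.toAffine.negY x y := by
      rw [← sub_ne_zero, ← tA3_eq]; exact hA3
    refine hne 2 _ _ (nonsingular_add h h (fun hh => hy hh.2)) le_rfl (by norm_num)
      (by rw [two_nsmul, hT, add_some (fun hh => hy hh.2)]) ?_
    rw [slope_of_Y_ne rfl hy, ← tA3_eq, ← tL.eq_def, Affine.addX]
    rw [tA2] at h2
    linear_combination -h2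
  have hu : tU W x y ≠ 0 := div_ne_zero hA3 hA2
  have hX0 : ∀ (k : ℕ) (X Y : K) (h' : W.toAffine.Nonsingular (tPX W x y X) (tPY W x y X Y)),
      2 ≤ k → k ≤ 9 → Point.some _ _ h' = k • T → X ≠ 0 := by
    intro k X Y h' hk1 hk2 he hX
    exact hne k _ _ h' hk1 hk2 he (by rw [tPX, hX]; ring)
  have hb : tB W x y ≠ 0 := div_ne_zero (neg_ne_zero.mpr (pow_ne_zero 3 hA2)) (pow_ne_zero 2 hA3)
  obtain ⟨b, hbd⟩ : ∃ b, b = tB W x y := ⟨_, rfl⟩
  obtain ⟨c, hcd⟩ : ∃ c, c = tC W x y := ⟨_, rfl⟩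
  rw [← hbd] at hb
  -- `2T`
  obtain ⟨h2, e2⟩ := double_tPoint hA2 hA3 h
  have E2 : Point.some _ _ h2 = 2 • T := by rw [two_nsmul, hT, e2]
  have step : ∀ (k : ℕ) (X Y : K) (h' : W.toAffine.Nonsingular (tPX W x y X) (tPY W x y X Y)),
      2 ≤ k → k ≤ 9 → Point.some _ _ h' = k • T →
      ∀ X' Y' : K, X' = (Y / X) ^ 2 + (1 - c) * (Y / X) + b - X →
        Y' = -(Y / X * X') - (1 - c) * X' + b →
        ∃ h'' : W.toAffine.Nonsingular (tPX W x y X') (tPY W x y X' Y'),
          Point.some _ _ h'' = (k + 1) • T := by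
    intro k X Y h' hk1 hk2 he X' Y' hX' hY'
    obtain ⟨h'', e⟩ := add_tPoint hA2 hA3 (hX0 k X Y h' hk1 hk2 he) h h'
    subst hY'
    subst hX'
    subst hbd
    subst hcd
    exact ⟨h'', by rw [succ_nsmul', ← he, hT, ← e]⟩
  -- `3T`
  obtain ⟨h2, E2⟩ : ∃ h' : W.toAffine.Nonsingular (tPX W x y b) (tPY W x y b (b * c)),
      Point.some _ _ h' = 2 • T := by subst hbd hcd; exact ⟨h2, E2⟩
  obtain ⟨h3, E3⟩ := step 2 b (b * c) h2 le_rfl (by norm_num) E2 c (b - c)
    (by field_simp; ring) (by field_simp; ring)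
  have hc : c ≠ 0 := hX0 3 c (b - c) h3 (by norm_num) (by norm_num) E3
  obtain ⟨r, hrd⟩ : ∃ r, r = b / c := ⟨_, rfl⟩
  have hbr : b = r * c := by rw [hrd]; field_simp
  have hr0 : r ≠ 0 := fun h0 => hb (by rw [hbr, h0, zero_mul])
  -- `4T`
  obtain ⟨h4, E4⟩ := step 3 c (b - c) h3 (by norm_num) (by norm_num) E3
    (r * (r - 1)) (r * (r - 1) * (c - r) + b)
    (by rw [hbr]; field_simp; ring) (by rw [hbr]; field_simp; ring)
  have hX4 := hX0 4 _ _ h4 (by norm_num) (by norm_num) E4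
  have hr1 : r - 1 ≠ 0 := fun h0 => hX4 (by rw [h0, mul_zero])
  obtain ⟨s, hsd⟩ : ∃ s, s = c / (r - 1) := ⟨_, rfl⟩
  have hcs : c = s * (r - 1) := by rw [hsd]; field_simp
  have hs0 : s ≠ 0 := fun h0 => hc (by rw [hcs, h0, zero_mul])
  -- `5T`
  obtain ⟨h5, E5⟩ := step 4 _ _ h4 (by norm_num) (by norm_num) E4
    (r * s * (s - 1)) (r * s ^ 2 * (r - s))
    (by rw [hbr, hcs]; field_simp; ring) (by rw [hbr, hcs]; field_simp; ring)
  have hX5 := hX0 5 _ _ h5 (by norm_num) (by norm_num) E5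
  have hs1 : s - 1 ≠ 0 := fun h0 => hX5 (by rw [h0, mul_zero])
  -- `6T = -5T`
  obtain ⟨X6, hX6⟩ : ∃ X6, X6 = ((r * s ^ 2 * (r - s)) / (r * s * (s - 1))) ^ 2
      + (1 - c) * ((r * s ^ 2 * (r - s)) / (r * s * (s - 1))) + b - r * s * (s - 1) := ⟨_, rfl⟩
  obtain ⟨h6, E6⟩ := step 5 _ _ h5 (by norm_num) (by norm_num) E5 X6 _ hX6 rfl
  have h56 : X6 = r * s * (s - 1) := by
    have hneg : Point.some _ _ h6 = -Point.some _ _ h5 := by
      rw [E6, E5, eq_neg_iff_add_eq_zero, ← add_nsmul]; exact h11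
    have := (X_eq_iff (h₁ := h6) (h₂ := h5)).mpr (Or.inr hneg)
    simp only [tPX, add_right_inj] at this
    exact mul_left_cancel₀ (pow_ne_zero 2 hu) this
  have hY : tY W x y = r - 1 := by rw [tY, ← hbd, ← hcd, hrd]
  have hX : tX W x y = (r - 1) / (s - 1) := by rw [tX, ← hbd, ← hcd, ← hrd, ← hsd]
  have hrel : (r - 1) ^ 2 + (r - 1) = ((r - 1) / (s - 1)) ^ 3 - ((r - 1) / (s - 1)) ^ 2 := by
    rw [hX6, hbr, hcs] at h56
    field_simp at h56 ⊢
    linear_combination -h56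
  have hsX : 1 + tY W x y / tX W x y = s := by
    rw [hX, hY]; field_simp; ring
  have hX00 : tX W x y ≠ 0 := by rw [hX]; exact div_ne_zero hr1 hs1
  refine ⟨hA2, hA3, hcd ▸ hc, hY ▸ hr1, by rw [hY, add_sub_cancel]; exact hr0, hX00, ?_, ?_,
    by rw [hY, hX]; exact hrel, ?_, ?_⟩
  · rw [hX]
    intro h1
    rw [sub_eq_zero] at h1
    rw [h1] at hrel
    exact mul_ne_zero hr0 hr1 (by linear_combination hrel)
  · intro h0
    apply hs0
    rw [← hsX, one_add_div hX00, h0, zero_div]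
  · rw [hsX, hY, ← hbd, hbr, hcs]; ring
  · rw [hsX, hY, ← hcd, hcs]

/-- The parameters of the double of the point. -/
theorem tateData_double (D : TateData W x y) (hD : W.toAffine.Equation x y) :
    let x' := tPX W x y (tB W x y)
    let y' := tPY W x y (tB W x y) (tB W x y * tC W x y)
    tX W x' y' = tY W x y / (tX W x y + tY W x y) ∧
      tY W x' y' = -(tX W x y - 1) * tY W x y / (tX W x y + tY W x y) ^ 2 := by
  intro x' y'
  have hA2 := D.A2
  have hA3 := D.A3
  have hu : tU W x y ≠ 0 := div_ne_zero hA3 hA2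
  obtain ⟨u, hu'⟩ : ∃ u, u = tU W x y := ⟨_, rfl⟩
  obtain ⟨b, hb'⟩ : ∃ b, b = tB W x y := ⟨_, rfl⟩
  obtain ⟨c, hc'⟩ : ∃ c, c = tC W x y := ⟨_, rfl⟩
  obtain ⟨X, hX'⟩ : ∃ X, X = tX W x y := ⟨_, rfl⟩
  obtain ⟨Y, hY'⟩ : ∃ Y, Y = tY W x y := ⟨_, rfl⟩
  have hb : b ≠ 0 := hb' ▸ div_ne_zero (neg_ne_zero.mpr (pow_ne_zero 3 hA2)) (pow_ne_zero 2 hA3)
  have hc : c ≠ 0 := hc' ▸ D.c0
  have hY0 : Y ≠ 0 := hY' ▸ D.Y0
  have hY1 : 1 + Y ≠ 0 := hY' ▸ D.Y1
  have hX0 : X ≠ 0 := hX' ▸ D.X0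
  have hX1 : X - 1 ≠ 0 := hX' ▸ D.X1
  have hXY : X + Y ≠ 0 := hX' ▸ hY' ▸ D.XY
  have heq : Y ^ 2 + Y = X ^ 3 - X ^ 2 := by rw [hX', hY']; exact D.eq
  have hbXY : b = (1 + Y) * (1 + Y / X) * Y := by rw [hb', hX', hY']; exact D.b_eq
  have hcXY : c = (1 + Y / X) * Y := by rw [hc', hX', hY']; exact D.c_eq
  have e1 : tA1 W x y = u * (1 - c) := by rw [hu', hc', tC, tU]; field_simp; ring
  have e2 : tA2 W x y = -(u ^ 2 * b) := by rw [hu', hb', tB, tU]; field_simp
  have e3 : tA3 W x y = -(u ^ 3 * b) := by rw [hu', hb', tB, tU]; field_simp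
  -- the translated equation has no linear term in `x`
  have e4 : 3 * x ^ 2 + 2 * W.a₂ * x + W.a₄ - W.a₁ * y = tL W x y * tA3 W x y := by
    rw [tL]; field_simp
  have hL : ∀ L, L = tL W x y → W.a₁ = u * (1 - c) - 2 * L ∧
      W.a₂ = -(u ^ 2 * b) - 3 * x + L * W.a₁ + L ^ 2 ∧
      W.a₃ = -(u ^ 3 * b) - W.a₁ * x - 2 * y := by
    intro L hL
    subst hL
    rw [← e1, ← e2, ← e3]; simp only [tA1, tA2, tA3]
    refine ⟨?_, ?_, ?_⟩ <;> ring
  have hA3' : tA3 W x' y' = u ^ 3 * b * c := by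
    obtain ⟨a1, a2, a3⟩ := hL _ rfl
    simp only [x', y', tPX, tPY, tA3, ← hu', ← hb', ← hc']
    rw [a3, a1]; ring
  have hl : b / c - 1 + c = (b ^ 2 - (1 - c) * (b * c)) / (b * c) := by
    field_simp; ring
  have hL' : tL W x' y' = tL W x y + u * (b / c - 1 + c) := by
    rw [tL, hA3', div_eq_iff (by simp [hu' ▸ hu, hb, hc]), add_mul, hl]
    rw [show u * ((b ^ 2 - (1 - c) * (b * c)) / (b * c)) * (u ^ 3 * b * c)
      = u ^ 4 * (b ^ 2 - (1 - c) * (b * c)) by field_simp]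
    obtain ⟨a1, a2, a3⟩ := hL _ rfl
    rw [e3] at e4
    simp only [x', y', tPX, tPY, ← hu', ← hb', ← hc']
    linear_combination e4 + 2 * u ^ 2 * b * a2 +
      (tL W x y * u ^ 2 * b - u ^ 3 * b * c) * a1
  have hA1' : tA1 W x' y' = u * (1 - c + 2 * (b / c - 1 + c)) := by
    rw [tA1, hL', ← sub_eq_zero]
    obtain ⟨a1, a2, a3⟩ := hL _ rfl
    rw [a1]; ring
  have hA2' : tA2 W x' y' =
      u ^ 2 * (2 * b - (b / c - 1 + c) * (1 - c) - (b / c - 1 + c) ^ 2) := by
    rw [tA2, hL']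
    obtain ⟨a1, a2, a3⟩ := hL _ rfl
    simp only [x', tPX, ← hu', ← hb']
    rw [a2, a1]; ring
  have hu0 : u ≠ 0 := hu' ▸ hu
  have hr : b / c = 1 + Y := by rw [hbXY, hcXY]; field_simp
  have hA2'' : tA2 W x' y' = u ^ 2 * ((1 + Y) * Y ^ 2 / X) := by
    rw [hA2', hr, hbXY, hcXY]; field_simp; ring
  have hA3'' : tA3 W x' y' = u ^ 3 * ((1 + Y) * (X + Y) ^ 2 * Y ^ 2 / X ^ 2) := by
    rw [hA3', hbXY, hcXY]; field_simp
  have hA1'' : tA1 W x' y' = u * ((X + 2 * X * Y + (X + Y) * Y) / X) := by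
    rw [hA1', hr, hcXY]; field_simp; ring
  have hb2 : tB W x' y' = -(X ^ 3 * (X - 1) * Y) / (X + Y) ^ 4 := by
    rw [tB, hA2'', hA3'']
    field_simp
    linear_combination -heq
  have hc2 : tC W x' y' = -((X - 1) ^ 2 * X ^ 2) / (X + Y) ^ 3 := by
    rw [tC, hA1'', hA2'', hA3'']
    field_simp
    linear_combination -X * heq
  have hY2 : tY W x' y' = -(X - 1) * Y / (X + Y) ^ 2 := by
    rw [tY, hb2, hc2]
    field_simp
    linear_combination heq
  refine ⟨?_, by rw [hY2, hX', hY']⟩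
  rw [tX, ← tY.eq_def, hY2, hc2, ← hX', ← hY']
  have hd : -((X - 1) ^ 2 * X ^ 2) / (X + Y) ^ 3 / (-(X - 1) * Y / (X + Y) ^ 2) - 1
      = (1 - X) / (X + Y) := by
    field_simp
    linear_combination -heq
  rw [hd]
  have : (1 : K) - X ≠ 0 := fun h0 => hX1 (by linear_combination -h0)
  field_simp
  ring

omit [DecidableEq K] in
theorem tateG_ne_zero (D : TateData W x y) (hD : W.toAffine.Equation x y) (hΔ : W.Δ ≠ 0) :
    tateG (tB W x y) (tC W x y) ≠ 0 := by
  intro hG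
  have hA2 := D.A2
  have hA3 := D.A3
  have hu : tU W x y ≠ 0 := div_ne_zero hA3 hA2
  let C : WeierstrassCurve.VariableChange K := ⟨Units.mk0 _ hu, x, tL W x y, y⟩
  have hC : C • W = ⟨1 - tC W x y, -tB W x y, -tB W x y, 0, 0⟩ := by
    rw [Affine.equation_iff] at hD
    ext
    · rw [variableChange_a₁]
      simp [C, tC, tU, tA1]; field_simp
    · rw [variableChange_a₂]
      simp [C, tB, tU]; field_simp; simp only [tA2]; ring
    · rw [variableChange_a₃]
      simp [C, tB, tU]; field_simp; simp only [tA3]; ring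
    · rw [variableChange_a₄]
      simp [C, tL, hu]; field_simp; simp only [tA3]; ring
    · rw [variableChange_a₆]
      simp [C, hu]; linear_combination -hD
  have h := W.variableChange_Δ C
  rw [hC] at h
  have hΔ' : (⟨1 - tC W x y, -tB W x y, -tB W x y, 0, 0⟩ : WeierstrassCurve K).Δ
      = tB W x y ^ 3 * tateG (tB W x y) (tC W x y) := by
    simp only [WeierstrassCurve.Δ, WeierstrassCurve.b₂, WeierstrassCurve.b₄, WeierstrassCurve.b₆,
      WeierstrassCurve.b₈, tateG]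
    ring
  rw [hΔ', hG, mul_zero] at h
  exact mul_ne_zero (pow_ne_zero 12 (Units.ne_zero _)) hΔ h.symm

end

end Fermat.Agent.X11
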