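import Fermat.Agent.X11.Descent
import Fermat.Agent.X11.Tate
import Fermat.Agent.X11.Cusp
import Fermat.Agent.ECTorsion.Galois
import Fermat.Prelude.Def_FLTPrelim_CofixedLine
import Fermat.Prelude.Def_FreyPackage_DetCyclotomic

/-!
No elliptic curve over `ℚ` has a Galois-stable line in its `11`-torsion with trivial quotient,
given that the determinant of the `11`-torsion representation is the cyclotomic character.
-/

set_option autoImplicit false

namespace Fermat.Agent.X11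

open WeierstrassCurve WeierstrassCurve.Affine WeierstrassCurve.Affine.Point
open scoped WeierstrassCurve.Affine

local notation "ℚ̄" => AlgebraicClosure ℚ

/-- The model `v² + v = u³ - u²` of `X₁(11)`. -/
def curve11 : WeierstrassCurve ℚ := ⟨0, -1, 1, 0, 0⟩

lemma curve11_equation (u v : ℚ̄) :
    (curve11⁄ℚ̄).toAffine.Equation u v ↔ v ^ 2 + v = u ^ 3 - u ^ 2 := by
  rw [Affine.equation_iff]
  simp [curve11]
  constructor <;> intro h <;> linear_combination h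

lemma curve11_nonsingular {u v : ℚ̄} (h : v ^ 2 + v = u ^ 3 - u ^ 2) :
    (curve11⁄ℚ̄).toAffine.Nonsingular u v := by
  refine (equation_iff_nonsingular_of_Δ_ne_zero ?_).mp ((curve11_equation u v).mpr h)
  simp [curve11, WeierstrassCurve.Δ, WeierstrassCurve.b₂, WeierstrassCurve.b₄,
    WeierstrassCurve.b₆, WeierstrassCurve.b₈]
  norm_num

open Classical in
/-- The point with given coordinates, or `0`. -/
noncomputable def pt11 (u v : ℚ̄) : (curve11⁄ℚ̄).Point :=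
  if h : v ^ 2 + v = u ^ 3 - u ^ 2 then Point.some u v (curve11_nonsingular h) else 0

lemma pt11_of_eq {u v : ℚ̄} (h : v ^ 2 + v = u ^ 3 - u ^ 2) :
    pt11 u v = Point.some u v (curve11_nonsingular h) := dif_pos h

/-- The rational point `(1, 0)`. -/
noncomputable def gen11 : (curve11⁄ℚ̄).Point := pt11 1 0

lemma smul_pt11 (σ : ℚ̄ ≃ₐ[ℚ] ℚ̄) (u v : ℚ̄) : σ • pt11 u v = pt11 (σ u) (σ v) := by
  by_cases h : v ^ 2 + v = u ^ 3 - u ^ 2
  · have h' : σ v ^ 2 + σ v = σ u ^ 3 - σ u ^ 2 := by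
      simpa using congrArg σ h
    rw [pt11_of_eq h, pt11_of_eq h']
    rfl
  · have h' : ¬ σ v ^ 2 + σ v = σ u ^ 3 - σ u ^ 2 := by
      intro h'
      exact h (by simpa using congrArg σ.symm h')
    rw [pt11, dif_neg h, pt11, dif_neg h']
    rfl

lemma smul_gen11 (σ : ℚ̄ ≃ₐ[ℚ] ℚ̄) : σ • gen11 = gen11 := by
  rw [gen11, smul_pt11, _root_.map_one, _root_.map_zero]

lemma pt11_add_gen11 {u v : ℚ̄} (h : v ^ 2 + v = u ^ 3 - u ^ 2) (h1 : u - 1 ≠ 0) (hs : u + v ≠ 0) :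
    pt11 u v + gen11 = pt11 (v / (u + v)) (-(u - 1) * v / (u + v) ^ 2) := by
  have hK : (u + v) * (u ^ 2 - u - v) = (u - 1) ^ 2 * v := by linear_combination -h
  have h' : (-(u - 1) * v / (u + v) ^ 2) ^ 2 + -(u - 1) * v / (u + v) ^ 2
      = (v / (u + v)) ^ 3 - (v / (u + v)) ^ 2 := by
    field_simp
    grind
  have g0 : (0 : ℚ̄) ^ 2 + 0 = 1 ^ 3 - 1 ^ 2 := by ring
  have hne : u ≠ (1 : ℚ̄) := sub_ne_zero.mp h1
  have hX : (curve11⁄ℚ̄).toAffine.addX u 1 ((curve11⁄ℚ̄).toAffine.slope u 1 v 0)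
      = v / (u + v) := by
    rw [slope_of_X_ne hne]
    simp [Affine.addX, curve11]
    field_simp
    grind
  have hY : (curve11⁄ℚ̄).toAffine.addY u 1 v ((curve11⁄ℚ̄).toAffine.slope u 1 v 0)
      = -(u - 1) * v / (u + v) ^ 2 := by
    rw [Affine.addY, Affine.negAddY, hX, slope_of_X_ne hne]
    simp [Affine.negY, curve11]
    field_simp
    grind
  rw [pt11_of_eq h, gen11, pt11_of_eq g0, add_some (fun hh => hne hh.1), pt11_of_eq h']
  simp only [Point.some.injEq]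
  exact ⟨hX, hY⟩

/-- The irrational cusp attached to an `11`th root of unity. -/
noncomputable def cuspPt (ζ : ℚ̄) : (curve11⁄ℚ̄).Point :=
  pt11 (cuspU (ζ + ζ⁻¹)) (cuspV (ζ + ζ⁻¹))

lemma etaPoly_of_primitive {ζ : ℚ̄} (hζ : IsPrimitiveRoot ζ 11) : etaPoly (ζ + ζ⁻¹) = 0 := by
  have h0 : ζ ≠ 0 := hζ.ne_zero (by norm_num)
  have hsum := hζ.geom_sum_eq_zero (by norm_num)
  simp only [Finset.sum_range_succ, Finset.sum_range_zero] at hsum
  simp only [etaPoly]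
  field_simp
  linear_combination hsum

lemma smul_cuspPt (σ : ℚ̄ ≃ₐ[ℚ] ℚ̄) (ζ : ℚ̄) : σ • cuspPt ζ = cuspPt (σ ζ) := by
  rw [cuspPt, cuspPt, smul_pt11]
  simp [cuspU, cuspV, _root_.map_ofNat]

lemma cuspPt_sq {ζ : ℚ̄} (hζ : IsPrimitiveRoot ζ 11) :
    cuspPt (ζ ^ 2) = cuspPt ζ + gen11 := by
  have h0 : ζ ≠ 0 := hζ.ne_zero (by norm_num)
  have he := etaPoly_of_primitive hζ
  have h2 : ζ ^ 2 + (ζ ^ 2)⁻¹ = (ζ + ζ⁻¹) ^ 2 - 2 := by field_simp; ring
  obtain ⟨hU, hV⟩ := cusp_double he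
  rw [cuspPt, cuspPt, h2, pt11_add_gen11 (cusp_eq he) (cuspU_ne_one he) (cuspS_ne_zero he), hU, hV]

lemma cuspPt_two_pow {ζ : ℚ̄} (hζ : IsPrimitiveRoot ζ 11) (k : ℕ) :
    cuspPt (ζ ^ 2 ^ k) = cuspPt ζ + k • gen11 := by
  induction k with
  | zero => simp
  | succ k ih =>
    rw [pow_succ, pow_mul,
      cuspPt_sq (hζ.pow_of_coprime _ (Nat.Coprime.pow_left k (by norm_num))), ih, succ_nsmul,
      add_assoc]

variable (E : WeierstrassCurve ℚ)

/-- The point of `X₁(11)` attached to a point of `E`. -/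
noncomputable def toX11 : (E⁄ℚ̄).Point → (curve11⁄ℚ̄).Point
  | 0 => 0
  | Point.some x y _ => pt11 (tX (E⁄ℚ̄) x y) (tY (E⁄ℚ̄) x y)

lemma smul_toX11 (σ : ℚ̄ ≃ₐ[ℚ] ℚ̄) (T : (E⁄ℚ̄).Point) :
    σ • toX11 E T = toX11 E (σ • T) := by
  cases T with
  | zero => exact _root_.smul_zero (A := (curve11⁄ℚ̄).Point) σ
  | some x y h =>
    show σ • pt11 (tX (E⁄ℚ̄) x y) (tY (E⁄ℚ̄) x y)
      = pt11 (tX (E⁄ℚ̄) (σ x) (σ y)) (tY (E⁄ℚ̄) (σ x) (σ y))
    rw [smul_pt11]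
    have h1 : σ (E⁄ℚ̄).a₁ = (E⁄ℚ̄).a₁ := σ.commutes E.a₁
    have h2 : σ (E⁄ℚ̄).a₂ = (E⁄ℚ̄).a₂ := σ.commutes E.a₂
    have h3 : σ (E⁄ℚ̄).a₃ = (E⁄ℚ̄).a₃ := σ.commutes E.a₃
    have h4 : σ (E⁄ℚ̄).a₄ = (E⁄ℚ̄).a₄ := σ.commutes E.a₄
    simp only [tX, tY, tB, tC, tA1, tA2, tA3, tL, _root_.map_div₀, _root_.map_sub, _root_.map_add,
      _root_.map_mul, _root_.map_pow, _root_.map_neg, _root_.map_one, _root_.map_ofNat,
      h1, h2, h3, h4]

lemma eleven_pow {T : (E⁄ℚ̄).Point} (h11 : (11 : ℕ) • T = 0) (hT : T ≠ 0) (k : ℕ) :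
    (11 : ℕ) • ((2 ^ k) • T) = 0 ∧ (2 ^ k) • T ≠ 0 := by
  refine ⟨by rw [← mul_nsmul', mul_nsmul, h11, nsmul_zero], fun h => hT ?_⟩
  have hg : Nat.gcd (2 ^ k) 11 = 1 := Nat.Coprime.pow_left k (by norm_num)
  exact AddMonoid.addOrderOf_eq_one_iff.mp (Nat.dvd_one.mp (hg ▸ Nat.dvd_gcd
    (addOrderOf_dvd_of_nsmul_eq_zero h) (addOrderOf_dvd_of_nsmul_eq_zero h11)))

lemma toX11_double {T : (E⁄ℚ̄).Point} (h11 : (11 : ℕ) • T = 0) (hT : T ≠ 0) :
    toX11 E ((2 : ℕ) • T) = toX11 E T + gen11 := by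
  cases T with
  | zero => exact absurd rfl hT
  | some x y h =>
    have D := tateData_of_order_eleven h h11
    obtain ⟨h', e⟩ := double_tPoint D.A2 D.A3 h
    obtain ⟨hU, hV⟩ := tateData_double D h.1
    rw [two_nsmul, e]
    show pt11 _ _ = pt11 _ _ + gen11
    rw [pt11_add_gen11 D.eq D.X1 D.XY, hU, hV]

lemma toX11_two_pow {T : (E⁄ℚ̄).Point} (h11 : (11 : ℕ) • T = 0) (hT : T ≠ 0) (k : ℕ) :
    toX11 E ((2 ^ k) • T) = toX11 E T + k • gen11 := by
  induction k with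
  | zero => simp
  | succ k ih =>
    obtain ⟨h1, h2⟩ := eleven_pow E h11 hT k
    rw [pow_succ', mul_nsmul', toX11_double E h1 h2, ih, succ_nsmul, add_assoc]

lemma fixed_point_mem (D : (curve11⁄ℚ̄).Point) (h : ∀ σ : ℚ̄ ≃ₐ[ℚ] ℚ̄, σ • D = D) :
    ∃ j : ℕ, D = j • gen11 := by
  cases D with
  | zero => exact ⟨0, (zero_nsmul gen11).symm⟩
  | some u v hns =>
    have : IsAlgClosure ℚ ℚ̄ := ⟨inferInstance, AlgebraicClosure.isAlgebraic ℚ⟩
    have : Algebra.IsAlgebraic ℚ ℚ̄ := AlgebraicClosure.isAlgebraic ℚ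
    have hIG : IsGalois ℚ ℚ̄ := isGalois_iff.mpr ⟨inferInstance, IsAlgClosure.normal ℚ ℚ̄⟩
    have hfix : ∀ σ : ℚ̄ ≃ₐ[ℚ] ℚ̄, σ u = u ∧ σ v = v := fun σ => by
      have e := h σ
      rw [algEquiv_smul_def, Point.map_some, Point.some.injEq] at e
      exact e
    obtain ⟨q, rfl⟩ := (InfiniteGalois.mem_range_algebraMap_iff_fixed u).mpr fun σ => (hfix σ).1
    obtain ⟨r, rfl⟩ := (InfiniteGalois.mem_range_algebraMap_iff_fixed v).mpr fun σ => (hfix σ).2
    have he : r ^ 2 + r = q ^ 3 - q ^ 2 := by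
      have := (curve11_equation _ _).mp hns.1
      exact (algebraMap ℚ ℚ̄).injective (by simpa using this)
    have hsome : Point.some _ _ hns = pt11 (algebraMap ℚ ℚ̄ q) (algebraMap ℚ ℚ̄ r) :=
      (pt11_of_eq ((curve11_equation _ _).mp hns.1)).symm
    rw [hsome]
    -- the multiples of `(1, 0)`
    have g0 : (0 : ℚ̄) ^ 2 + 0 = 1 ^ 3 - 1 ^ 2 := by ring
    have n0 : (0 : ℚ̄) ^ 2 + 0 = 0 ^ 3 - 0 ^ 2 := by ring
    have n1 : (-1 : ℚ̄) ^ 2 + -1 = 0 ^ 3 - 0 ^ 2 := by ring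
    have e2 : 2 • gen11 = pt11 0 0 := by
      have hy : (0 : ℚ̄) ≠ (curve11⁄ℚ̄).toAffine.negY 1 0 := by simp [Affine.negY, curve11]
      rw [two_nsmul, gen11, pt11_of_eq g0, add_of_Y_ne hy, pt11_of_eq n0]
      simp only [Point.some.injEq]
      simp [Affine.addX, Affine.addY, Affine.negY, Affine.negAddY, Affine.slope, curve11]
      norm_num
    have e3 : 3 • gen11 = pt11 0 (-1) := by
      have hx : (0 : ℚ̄) ≠ 1 := zero_ne_one
      rw [succ_nsmul, e2, gen11, pt11_of_eq g0, pt11_of_eq n0, add_some (fun hh => hx hh.1),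
        pt11_of_eq n1]
      simp only [Point.some.injEq]
      simp [Affine.addX, Affine.addY, Affine.negY, Affine.negAddY, Affine.slope, curve11]
    have e4 : 4 • gen11 = pt11 1 (-1) := by
      rw [succ_nsmul, e3, pt11_add_gen11 n1 (by norm_num) (by norm_num)]
      norm_num
    obtain ⟨hu, hv⟩ := rat_points he
    rcases hu with rfl | rfl <;> rcases hv with rfl | rfl <;> simp only [_root_.map_zero, _root_.map_one, _root_.map_neg]
    · exact ⟨2, e2.symm⟩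
    · exact ⟨3, e3.symm⟩
    · exact ⟨1, (one_nsmul gen11).symm⟩
    · exact ⟨4, e4.symm⟩

lemma exists_two_pow_eq : ∀ a : (ZMod 11)ˣ, ∃ k ∈ Finset.range 10, (2 : ZMod 11) ^ k = a := by
  decide

/-- If some nonzero `11`-torsion point is moved by Galois through the cyclotomic character,
contradiction. -/
theorem no_cyclotomic_point (hΔ : E.Δ ≠ 0) {T : (E⁄ℚ̄).Point} (h11 : (11 : ℕ) • T = 0)
    (hT : T ≠ 0) (hn : Nat.card (rootsOfUnity 11 ℚ̄) = 11)
    (hσ : ∀ σ : ℚ̄ ≃ₐ[ℚ] ℚ̄, σ • T =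
      ((modularCyclotomicCharacter ℚ̄ hn (σ : ℚ̄ ≃+* ℚ̄) : (ZMod 11)ˣ) : ZMod 11).val • T) :
    False := by
  obtain ⟨ζ, hζ⟩ := HasEnoughRootsOfUnity.exists_primitiveRoot ℚ̄ 11
  have hfix : ∀ σ : ℚ̄ ≃ₐ[ℚ] ℚ̄,
      σ • (toX11 E T - cuspPt ζ) = toX11 E T - cuspPt ζ := by
    intro σ
    obtain ⟨k, -, hk⟩ := exists_two_pow_eq (modularCyclotomicCharacter ℚ̄ hn (σ : ℚ̄ ≃+* ℚ̄))
    have hval : ((modularCyclotomicCharacter ℚ̄ hn (σ : ℚ̄ ≃+* ℚ̄) : (ZMod 11)ˣ) : ZMod 11).val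
        = 2 ^ k % 11 := by
      rw [← hk, ← ZMod.val_natCast 11 (2 ^ k)]; norm_num
    have hT' : σ • T = (2 ^ k) • T := by
      rw [hσ σ, hval]
      conv_rhs => rw [← Nat.mod_add_div (2 ^ k) 11, add_nsmul, mul_nsmul, h11, nsmul_zero, add_zero]
    have hz' : σ ζ = ζ ^ 2 ^ k := by
      have h := modularCyclotomicCharacter.spec (L := ℚ̄) hn (σ : ℚ̄ ≃+* ℚ̄)
        (t := (hζ.isUnit (by norm_num)).unit) (by
          rw [mem_rootsOfUnity]; ext; simp [hζ.pow_eq_one])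
      simp only [IsUnit.unit_spec, AlgEquiv.coe_ringEquiv] at h
      rw [h, hval]
      exact (pow_eq_pow_mod _ hζ.pow_eq_one).symm
    rw [smul_sub, smul_toX11, hT', toX11_two_pow E h11 hT, smul_cuspPt, hz', cuspPt_two_pow hζ]
    abel
  obtain ⟨j, hj⟩ := fixed_point_mem _ hfix
  have he : toX11 E T = cuspPt (ζ ^ 2 ^ j) := by
    rw [cuspPt_two_pow hζ, ← hj]; abel
  cases T with
  | zero => exact hT rfl
  | some x y h =>
    have D := tateData_of_order_eleven h h11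
    have hp : IsPrimitiveRoot (ζ ^ 2 ^ j) 11 :=
      hζ.pow_of_coprime _ (Nat.Coprime.pow_left j (by norm_num))
    have hη := etaPoly_of_primitive hp
    change pt11 _ _ = pt11 _ _ at he
    rw [pt11_of_eq D.eq, pt11_of_eq (cusp_eq hη), Point.some.injEq] at he
    have hΔ' : (E⁄ℚ̄).Δ ≠ 0 :=
      Fermat.Agent.ECTorsion.Δ_baseChange_ne_zero
        ((map_ne_zero_iff _ (algebraMap ℚ ℚ̄).injective).mpr hΔ)
    apply tateG_ne_zero D h.1 hΔ'
    rw [D.b_eq, D.c_eq, he.1, he.2]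
    exact cusp_tateG hη

/-- No elliptic curve over `ℚ` with cyclotomic determinant on `E[11]` has a Galois-stable line in
`E[11]` with trivial quotient. -/
theorem no_cofixed_eleven (hΔ : E.Δ ≠ 0) (hn : Nat.card (rootsOfUnity 11 ℚ̄) = 11)
    (hdet : GaloisRepDetEqCyclotomic (K := ℚ̄) ℚ E 11 hn) :
    ¬ HasGaloisStableCofixedLine (K := ℚ̄) ℚ E 11 := by
  rintro ⟨N, hN, hbot, htop, hcofix⟩
  have : Fact (Nat.Prime 11) := ⟨by norm_num⟩
  have h2 : Module.finrank (ZMod 11) (Submodule.torsionBy ℤ (E⁄ℚ̄).Point (11 : ℕ)) = 2 := Fermat.Agent.ECTorsion.finrank_torsionBy_qbar E hΔ 11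
  have : FiniteDimensional (ZMod 11) (Submodule.torsionBy ℤ (E⁄ℚ̄).Point (11 : ℕ)) := Module.finite_of_finrank_pos (by rw [h2]; norm_num)
  obtain ⟨t, htN, ht0⟩ := (Submodule.ne_bot_iff N).mp hbot
  obtain ⟨w, hwN⟩ : ∃ w : (Submodule.torsionBy ℤ (E⁄ℚ̄).Point (11 : ℕ)), w ∉ N := by
    by_contra hc; push Not at hc; exact htop (eq_top_iff.mpr fun w _ => hc w)
  have hN1 : Module.finrank (ZMod 11) N = 1 := by
    have h1 := lt_of_lt_of_eq (Submodule.finrank_lt htop) h2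
    have h0 : Module.finrank (ZMod 11) N ≠ 0 := fun h => hbot (Submodule.finrank_eq_zero.mp h)
    omega
  have hspan : ∀ z ∈ N, ∃ a : ZMod 11, a • t = z := by
    intro z hz
    obtain ⟨a, ha⟩ := (finrank_eq_one_iff_of_nonzero' (⟨t, htN⟩ : N)
      (by simpa [Submodule.mk_eq_zero] using ht0)).mp hN1 ⟨z, hz⟩
    exact ⟨a, congrArg Subtype.val ha⟩
  have hli : LinearIndependent (ZMod 11) ![t, w] := by
    rw [LinearIndependent.pair_iff]
    intro a b hab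
    have hb : b = 0 := by
      by_contra hb
      refine hwN ?_
      have : w = -(b⁻¹ * a) • t := by
        rw [neg_smul, mul_smul, eq_neg_of_add_eq_zero_left hab, smul_neg, neg_neg, ← mul_smul,
          inv_mul_cancel₀ hb, one_smul]
      rw [this]; exact N.smul_mem _ htN
    subst hb
    refine ⟨?_, rfl⟩
    have hw0 : (0 : ZMod 11) • w = 0 := zero_smul _ w
    rw [hw0, add_zero] at hab
    exact (smul_eq_zero.mp hab).resolve_right ht0
  let B := basisOfLinearIndependentOfCardEqFinrank hli (by rw [h2]; rfl)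
  have hB : (B : Fin 2 → (Submodule.torsionBy ℤ (E⁄ℚ̄).Point (11 : ℕ))) = ![t, w] := coe_basisOfLinearIndependentOfCardEqFinrank _ _
  refine no_cyclotomic_point E hΔ (T := (t : (E⁄ℚ̄).Point)) ?_
    (fun h => ht0 (Subtype.ext h)) hn fun σ => ?_
  · have := t.2
    rw [Submodule.mem_torsionBy_iff, natCast_zsmul] at this
    exact this
  · obtain ⟨a, ha⟩ := hspan _ (hN σ t htN)
    obtain ⟨d, hd⟩ := hspan _ (hcofix σ w)
    have hd' : σ • w = d • t + w := by rw [hd]; abel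
    have h := hdet σ
    have hdetσ : ((galoisRepDet (S := ℚ) (K := ℚ̄) E 11 σ : (ZMod 11)ˣ) : ZMod 11) = a := by
      rw [galoisRepDet_apply, LinearEquiv.coe_det, ← LinearMap.det_toMatrix B, Matrix.det_fin_two]
      have r0 : B.repr (σ • t) = Finsupp.single 0 a := by
        rw [← ha, show t = B 0 by rw [hB]; rfl, _root_.map_smul, B.repr_self]
        simp
      have r1 : B.repr (σ • w) = Finsupp.single 0 d + Finsupp.single 1 1 := by
        rw [hd', show t = B 0 by rw [hB]; rfl, show w = B 1 by rw [hB]; rfl, _root_.map_add, _root_.map_smul,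
          B.repr_self, B.repr_self]
        simp
      have e0 : B 0 = t := by rw [hB]; rfl
      have e1 : B 1 = w := by rw [hB]; rfl
      have g0 : galoisRep (S := ℚ) (K := ℚ̄) E 11 σ t = σ • t := rfl
      have g1 : galoisRep (S := ℚ) (K := ℚ̄) E 11 σ w = σ • w := rfl
      simp only [LinearMap.toMatrix_apply, e0, e1, LinearEquiv.coe_coe]
      rw [g0, g1, r0, r1]
      simp
    rw [h] at hdetσ
    rw [hdetσ]
    have hsm : σ • t = a.val • t := by
      rw [← ha, ← Nat.cast_smul_eq_nsmul (ZMod 11) a.val t, ZMod.natCast_zmod_val]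
    exact congrArg Subtype.val hsm

end Fermat.Agent.X11
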