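import Fermat.Agent.X11.Cubic

/-!
The key step of the `2`-descent: `e² - α m` is a square in the cubic field.
-/

set_option autoImplicit false

namespace Fermat.Agent.X11

open NumberField

/-- The norm on the ring of integers, through the coordinates. -/
noncomputable def nO (z : 𝓞 K11) : ℤ :=
  nform (exists_ofc z).choose (exists_ofc z).choose_spec.choose
    (exists_ofc z).choose_spec.choose_spec.choose

lemma nO_ofc (a b c : ℤ) : nO (ofc a b c) = nform a b c := by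
  obtain ⟨h1, h2, h3⟩ :=
    ofc_inj (exists_ofc (ofc a b c)).choose_spec.choose_spec.choose_spec.symm
  exact congr (congr (congrArg nform h1) h2) h3

lemma nO_mul (x y : 𝓞 K11) : nO (x * y) = nO x * nO y := by
  obtain ⟨a, b, c, rfl⟩ := exists_ofc x
  obtain ⟨A, B, C, rfl⟩ := exists_ofc y
  rw [ofc_mul, nO_ofc, nO_ofc, nO_ofc, nform_mul]

lemma ofc_one : ofc 1 0 0 = 1 := by simp [ofc]

lemma nO_one : nO 1 = 1 := by rw [← ofc_one, nO_ofc]; norm_num [nform]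

lemma nO_pow (x : 𝓞 K11) (k : ℕ) : nO (x ^ k) = nO x ^ k := by
  induction k with
  | zero => simp [nO_one]
  | succ k ih => rw [pow_succ, nO_mul, ih, pow_succ]

lemma nO_intCast (k : ℤ) : nO (k : 𝓞 K11) = k ^ 3 := by
  rw [show (k : 𝓞 K11) = ofc k 0 0 by simp [ofc], nO_ofc]; simp only [nform]; ring

lemma isUnit_iff_nO (x : 𝓞 K11) : IsUnit x ↔ nO x = 1 ∨ nO x = -1 := by
  constructor
  · intro h
    obtain ⟨y, hy⟩ := h.exists_right_inv
    have h1 := congrArg nO hy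
    rw [nO_mul, nO_one] at h1
    exact Int.eq_one_or_neg_one_of_mul_eq_one h1
  · intro h
    obtain ⟨a, b, c, rfl⟩ := exists_ofc x
    rw [nO_ofc] at h
    refine isUnit_of_dvd_one ?_
    rcases h with h | h
    · exact Dvd.intro _ (by rw [ofc_adj, h, ofc_one])
    · exact ⟨-(ofc ((a - c) * (a + b) + (b + c) * (b + 2 * c)) (-b * (a + b) - c * (b + 2 * c))
        (b * (b + c) - c * (a - c))), by rw [mul_neg, ofc_adj, h]; simp [ofc]⟩

lemma prime_of_nO {x : 𝓞 K11} {l : ℕ} (hl : l.Prime) (h : nO x = l ∨ nO x = -l) : Prime x := by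
  have := pidK
  have hnu : ¬ IsUnit x := by
    rw [isUnit_iff_nO]; have := hl.two_le; omega
  refine (Irreducible.prime ⟨hnu, fun y z hyz => ?_⟩)
  have h1 : (nO y).natAbs * (nO z).natAbs = l := by
    rw [← Int.natAbs_mul, ← nO_mul, ← hyz]; omega
  rcases (Nat.prime_mul_iff.mp (h1 ▸ hl)) with ⟨_, h2⟩ | ⟨_, h2⟩
  · right; rw [isUnit_iff_nO]; omega
  · left; rw [isUnit_iff_nO]; omega

/-- The root `α` of `X³ - 4X + 4`. -/
noncomputable def alphaO : 𝓞 K11 := ofc (-1) 2 (-1)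

lemma alphaO_eq : alphaO = -1 + 2 * th - th ^ 2 := by simp [alphaO, ofc]; ring

lemma alphaO_rel : alphaO ^ 3 - 4 * alphaO + 4 = 0 := by
  have key : ((ofc (-1) 2 (-1)) * ofc (-1) 2 (-1)) * ofc (-1) 2 (-1) = ofc (-8) 8 (-4) := by
    rw [ofc_mul, ofc_mul]; norm_num
  rw [alphaO, pow_three, ← mul_assoc, key]; simp [ofc]; ring

/-- A prime above `2`. -/
noncomputable def primeP : 𝓞 K11 := ofc 1 1 0

/-- A prime above `11`. -/
noncomputable def primeQ : 𝓞 K11 := ofc 9 (-7) 5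

lemma prime_primeP : Prime primeP :=
  prime_of_nO Nat.prime_two (Or.inl (by rw [primeP, nO_ofc]; norm_num [nform]))

lemma prime_primeQ : Prime primeQ :=
  prime_of_nO (by norm_num : Nat.Prime 11) (Or.inl (by rw [primeQ, nO_ofc]; norm_num [nform]))

lemma deriv_eq : (3 * alphaO ^ 2 - 4) * ofc 0 1 2 = primeP ^ 4 * primeQ := by
  have h1 : 3 * alphaO ^ 2 - 4 = ofc 8 (-6) 6 := by
    rw [alphaO, pow_two, ofc_mul]; norm_num [ofc]; ring
  have h2 : primeP ^ 4 * primeQ = ofc 1 1 0 * ofc 1 1 0 * ofc 1 1 0 * ofc 1 1 0 * ofc 9 (-7) 5 := by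
    rw [primeP, primeQ]; ring
  rw [h1, h2]; simp only [ofc_mul]; norm_num

lemma not_square_theta (s : 𝓞 K11) : s ^ 2 ≠ th ∧ s ^ 2 ≠ -th := by
  obtain ⟨a, b, c, rfl⟩ := exists_ofc s
  have h7 : ∀ x y z : ZMod 7,
      ¬ (x * x - y * z - z * (y + z) = 0 ∧
        (x * y + y * (x - z) - z * (y + 2 * z) = 1 ∨ x * y + y * (x - z) - z * (y + 2 * z) = -1) ∧
        x * z + y * (y + z) + z * (x + y) = 0) := by decide
  rw [pow_two, ofc_mul]
  constructor <;> intro h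
  · have h' : th = ofc 0 1 0 := by simp [ofc]
    rw [h'] at h
    obtain ⟨e1, e2, e3⟩ := ofc_inj h
    refine h7 a b c ⟨?_, Or.inl ?_, ?_⟩ <;>
      [have e := congrArg (fun t : ℤ => (t : ZMod 7)) e1;
       have e := congrArg (fun t : ℤ => (t : ZMod 7)) e2;
       have e := congrArg (fun t : ℤ => (t : ZMod 7)) e3] <;>
      simpa using e
  · have h' : -th = ofc 0 (-1) 0 := by simp [ofc]
    rw [h'] at h
    obtain ⟨e1, e2, e3⟩ := ofc_inj h
    refine h7 a b c ⟨?_, Or.inr ?_, ?_⟩ <;>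
      [have e := congrArg (fun t : ℤ => (t : ZMod 7)) e1;
       have e := congrArg (fun t : ℤ => (t : ZMod 7)) e2;
       have e := congrArg (fun t : ℤ => (t : ZMod 7)) e3] <;>
      simpa using e

lemma unit_classes (u : (𝓞 K11)ˣ) : ∃ s d : 𝓞 K11,
    (s = 1 ∨ s = -1 ∨ s = th ∨ s = -th) ∧ (u : 𝓞 K11) = s * d ^ 2 := by
  let i0 : Fin (Units.rank K11) := ⟨0, by rw [rankK]; norm_num⟩
  let η : (𝓞 K11)ˣ := Units.fundSystem K11 i0
  have decomp : ∀ v : (𝓞 K11)ˣ, ∃ k : ℤ, v = η ^ k ∨ v = -η ^ k := by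
    intro v
    obtain ⟨⟨ζ, e⟩, h, -⟩ := Units.exist_unique_eq_mul_prod K11 v
    have hsub : ∀ i : Fin (Units.rank K11), i = i0 := fun i => by
      apply Fin.ext; have := i.isLt; have := rankK; simp only [i0]; omega
    have hprod : ∏ i, Units.fundSystem K11 i ^ e i = η ^ e i0 := by
      rw [Finset.prod_eq_single i0 (fun i _ hi => absurd (hsub i) hi) (by simp)]
    rw [hprod] at h
    rcases Units.torsion_eq_one_or_neg_one_of_odd_finrank (by rw [finrankK]; decide) ζ with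
      hz | hz <;> rw [hz] at h
    · exact ⟨e i0, Or.inl (by simpa using h)⟩
    · exact ⟨e i0, Or.inr (by simpa using h)⟩
  have thu : IsUnit th := by
    rw [isUnit_iff_nO, show th = ofc 0 1 0 by simp [ofc], nO_ofc]; norm_num [nform]
  -- `η` is `± θ` times a square
  obtain ⟨j, hj⟩ := decomp thu.unit
  obtain ⟨σ, d, hσ, hη⟩ : ∃ σ d : (𝓞 K11)ˣ, (σ = thu.unit ∨ σ = -thu.unit) ∧ η = σ * d ^ 2 := by
    rcases Int.even_or_odd' j with ⟨i, rfl | rfl⟩
    · exfalso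
      rcases hj with hj | hj <;> rw [mul_comm 2 i, zpow_mul, zpow_two, ← pow_two] at hj <;>
        have h' := congrArg (fun x : (𝓞 K11)ˣ => (x : 𝓞 K11)) hj
      · exact (not_square_theta ((η ^ i : (𝓞 K11)ˣ) : 𝓞 K11)).1 (by simpa using h'.symm)
      · exact (not_square_theta ((η ^ i : (𝓞 K11)ˣ) : 𝓞 K11)).2 (by
          simp at h'; rw [h', neg_neg])
    · rcases hj with hj | hj
      · exact ⟨thu.unit, η ^ (-i), Or.inl rfl, by rw [hj]; group⟩
      · refine ⟨-thu.unit, η ^ (-i), Or.inr rfl, ?_⟩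
        rw [hj, neg_neg]; group
  obtain ⟨k, hk⟩ := decomp u
  rcases Int.even_or_odd' k with ⟨i, rfl | rfl⟩
  · rcases hk with hk | hk
    · exact ⟨1, ((η ^ i : (𝓞 K11)ˣ) : 𝓞 K11), Or.inl rfl, by
        rw [one_mul, hk, mul_comm 2 i, zpow_mul, zpow_two, ← pow_two]; simp⟩
    · exact ⟨-1, ((η ^ i : (𝓞 K11)ˣ) : 𝓞 K11), Or.inr (Or.inl rfl), by
        rw [hk, mul_comm 2 i, zpow_mul, zpow_two, ← pow_two]; simp⟩
  · have hodd : η ^ (2 * i + 1) = σ * (d * η ^ i) ^ 2 := by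
      rw [zpow_add_one, hη]
      simp only [mul_zpow, pow_two, two_mul, zpow_add]
      ac_rfl
    rw [hodd] at hk
    rcases hσ with rfl | rfl <;> rcases hk with hk | hk
    · exact ⟨th, ((d * η ^ i : (𝓞 K11)ˣ) : 𝓞 K11), Or.inr (Or.inr (Or.inl rfl)), by rw [hk]; simp⟩
    · exact ⟨-th, ((d * η ^ i : (𝓞 K11)ˣ) : 𝓞 K11), Or.inr (Or.inr (Or.inr rfl)), by rw [hk]; simp⟩
    · exact ⟨-th, ((d * η ^ i : (𝓞 K11)ˣ) : 𝓞 K11), Or.inr (Or.inr (Or.inr rfl)), by rw [hk]; simp⟩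
    · exact ⟨th, ((d * η ^ i : (𝓞 K11)ˣ) : 𝓞 K11), Or.inr (Or.inr (Or.inl rfl)), by rw [hk]; simp⟩

lemma isUnit_mul_square {a b k : 𝓞 K11} (hab : IsCoprime a b) (h : a * b = k ^ 2) :
    ∃ (u : (𝓞 K11)ˣ) (d : 𝓞 K11), a = u * d ^ 2 := by
  have := pidK
  classical
  let : GCDMonoid (𝓞 K11) := IsBezout.toGCDDomain _
  obtain ⟨d, hd⟩ := exists_associated_pow_of_mul_eq_pow
    (a := a) (b := b) (c := k) ((gcd_isUnit_iff a b).mpr hab) h
  obtain ⟨u, hu⟩ := hd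
  exact ⟨u, d, by rw [← hu]; ring⟩

lemma gamma_mul (e m : ℤ) :
    ((e : 𝓞 K11) ^ 2 - alphaO * m) * ((e : 𝓞 K11) ^ 4 + alphaO * e ^ 2 * m
      + (alphaO ^ 2 - 4) * m ^ 2)
      = ((4 * m ^ 3 - 4 * m ^ 2 * e ^ 2 + e ^ 6 : ℤ) : 𝓞 K11) := by
  push_cast
  linear_combination -(m : 𝓞 K11) ^ 3 * alphaO_rel

lemma gamma_eq_ofc (e m : ℤ) :
    (e : 𝓞 K11) ^ 2 - alphaO * m = ofc (e ^ 2 + m) (-2 * m) m := by
  rw [alphaO_eq]; simp [ofc]; ring

lemma nform_gamma (e m : ℤ) :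
    nform (e ^ 2 + m) (-2 * m) m = 4 * m ^ 3 - 4 * m ^ 2 * e ^ 2 + e ^ 6 := by
  simp only [nform]; ring

/-- The descent step: `e² - α m` is a square. -/
theorem gamma_square {e m n : ℤ} (hcop : IsCoprime m e)
    (heq : n ^ 2 = 4 * m ^ 3 - 4 * m ^ 2 * e ^ 2 + e ^ 6) (hn : n ≠ 0) :
    ∃ p q r : ℤ, e ^ 2 = p ^ 2 - 2 * p * r - q ^ 2 - 4 * q * r - r ^ 2 ∧
      m = 2 * p * r + q ^ 2 + 2 * q * r ∧
      p * q + 2 * p * r + q ^ 2 + q * r - r ^ 2 = 0 := by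
  have := pidK
  classical
  let : GCDMonoid (𝓞 K11) := IsBezout.toGCDDomain _
  set γ : 𝓞 K11 := (e : 𝓞 K11) ^ 2 - alphaO * m with hγ
  set G : 𝓞 K11 := (e : 𝓞 K11) ^ 4 + alphaO * e ^ 2 * m + (alphaO ^ 2 - 4) * m ^ 2 with hG
  have hγG : γ * G = (n : 𝓞 K11) ^ 2 := by
    rw [hγ, hG, gamma_mul, ← heq]; push_cast; ring
  have hN : nO γ = n ^ 2 := by rw [hγ, gamma_eq_ofc, nO_ofc, nform_gamma, heq]
  have hγ0 : γ ≠ 0 := by
    intro h; rw [h, show (0 : 𝓞 K11) = ((0 : ℤ) : 𝓞 K11) by simp, nO_intCast] at hN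
    exact hn (pow_eq_zero_iff two_ne_zero |>.mp (by simpa using hN.symm))
  set g : 𝓞 K11 := gcd γ G with hg
  have hg0 : g ≠ 0 := fun h => hγ0 ((gcd_eq_zero_iff γ G).mp h).1
  obtain ⟨a, ha⟩ := gcd_dvd_left γ G
  obtain ⟨b, hb⟩ := gcd_dvd_right γ G
  rw [← hg] at ha hb
  have hgn : g ∣ (n : 𝓞 K11) := by
    rw [← IsIntegrallyClosed.pow_dvd_pow_iff (n := 2) two_ne_zero, ← hγG]
    exact ⟨a * b, by rw [ha, hb]; ring⟩
  obtain ⟨k, hk⟩ := hgn
  have hab : a * b = k ^ 2 :=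
    mul_left_cancel₀ (pow_ne_zero 2 hg0) (by
      rw [← mul_pow, ← hk, ← hγG, ha, hb]; ring)
  have hunit : IsUnit (gcd a b) :=
    isUnit_gcd_of_eq_mul_gcd ha hb (fun h => hg0 h)
  obtain ⟨u, d, hd⟩ := isUnit_mul_square ((gcd_isUnit_iff a b).mp hunit) hab
  -- the common divisor is supported on `primeP, primeQ`
  have hgD : g ∣ primeP ^ 4 * primeQ := by
    rw [← deriv_eq]
    apply Dvd.dvd.mul_right
    have h2 : g ∣ (3 * alphaO ^ 2 - 4) * (m : 𝓞 K11) ^ 2 := by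
      have : (3 * alphaO ^ 2 - 4) * (m : 𝓞 K11) ^ 2 = G - γ * (γ + 3 * alphaO * m) := by
        rw [hγ, hG]; ring
      rw [this]; exact dvd_sub ⟨b, hb⟩ (Dvd.dvd.mul_right ⟨a, ha⟩ _)
    have hc : IsCoprime g ((m : 𝓞 K11) ^ 2) := by
      refine IsCoprime.pow_right ?_
      refine IsCoprime.of_isCoprime_of_dvd_left ?_ ⟨a, ha⟩
      obtain ⟨x, y, hxy⟩ := hcop.symm.pow_left (m := 2)
      refine ⟨(x : 𝓞 K11), (y : 𝓞 K11) + x * alphaO, ?_⟩
      have := congrArg (fun t : ℤ => (t : 𝓞 K11)) hxy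
      push_cast at this
      rw [hγ]; linear_combination this
    exact hc.dvd_of_dvd_mul_right h2
  obtain ⟨g1, g2, hg1, hg2, hg12⟩ := (dvd_mul).mp hgD
  obtain ⟨i, -, hi⟩ := (dvd_prime_pow prime_primeP 4).mp hg1
  obtain ⟨j, hj1, hj⟩ : ∃ j, j ≤ 1 ∧ Associated g2 (primeQ ^ j) := by
    obtain ⟨j, h1, h2⟩ := (dvd_prime_pow prime_primeQ 1).mp (by simpa using hg2)
    exact ⟨j, h1, h2⟩
  obtain ⟨v, hv⟩ := (hi.mul_mul hj).symm
  rw [← hg12] at hv
  have hγ' : γ = (↑(v * u) : 𝓞 K11) * primeP ^ i * primeQ ^ j * d ^ 2 := by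
    rw [ha, hd, ← hv, Units.val_mul]; ring
  have hNd : nO γ = nO (↑(v * u) : 𝓞 K11) * 2 ^ i * 11 ^ j * nO d ^ 2 := by
    rw [hγ', nO_mul, nO_mul, nO_mul, nO_pow, nO_pow, nO_pow]
    simp [primeP, primeQ, nO_ofc, nform]
  have hU := (isUnit_iff_nO _).mp (v * u).isUnit
  rw [hN] at hNd
  have hNd0 : nO d ≠ 0 := by
    intro h; rw [h] at hNd; simp at hNd; exact hn hNd
  -- parity of the exponents
  obtain ⟨i', r, hr, rfl⟩ : ∃ i' r : ℕ, r ≤ 1 ∧ i = 2 * i' + r := ⟨i / 2, i % 2, by omega, by omega⟩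
  have habs : n ^ 2 = 2 ^ r * 11 ^ j * (2 ^ i' * nO d) ^ 2 := by
    have : 0 < 2 ^ r * 11 ^ j * (2 ^ i' * nO d) ^ 2 := by positivity
    have hn2 : 0 ≤ n ^ 2 := sq_nonneg n
    rcases hU with h | h <;> rw [h] at hNd <;> ring_nf at hNd this ⊢ <;> linarith
  have hsq : IsSquare ((2 : ℤ) ^ r * 11 ^ j) := by
    rw [← Rat.isSquare_intCast_iff]
    refine ⟨(n : ℚ) / (2 ^ i' * nO d), ?_⟩
    have hne : ((2 : ℚ) ^ i' * (nO d : ℚ)) ≠ 0 := by simp [hNd0]
    rw [div_mul_div_comm, eq_div_iff (mul_ne_zero hne hne)]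
    have := congrArg (fun t : ℤ => (t : ℚ)) habs
    push_cast at this ⊢
    linear_combination -this
  have hrj : r = 0 ∧ j = 0 := by
    obtain ⟨s, hs⟩ := hsq
    have h5 : -5 < s ∧ s < 5 := by
      interval_cases r <;> interval_cases j <;> constructor <;> nlinarith
    obtain ⟨hs1, hs2⟩ := h5
    interval_cases r <;> interval_cases j <;> norm_num at hs ⊢ <;> interval_cases s <;> omega
  obtain ⟨rfl, rfl⟩ := hrj
  obtain ⟨s, c, hs, hsc⟩ := unit_classes (v * u)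
  have hγ'' : γ = s * (c * primeP ^ i' * d) ^ 2 := by rw [hγ', hsc]; ring
  obtain ⟨p, q, r, hpqr⟩ := exists_ofc (c * primeP ^ i' * d)
  rw [hpqr] at hγ''
  have hpos : 0 ≤ nO γ := hN ▸ sq_nonneg n
  have hnormc : nO γ = nO s * nform p q r ^ 2 := by rw [hγ'', nO_mul, nO_pow, nO_ofc]
  have hmin : ¬ (nO s = -1) := by
    intro h
    rw [h] at hnormc
    have : 0 < nform p q r ^ 2 := by
      apply sq_pos_of_ne_zero; intro h0; rw [h0] at hnormc; simp [hN] at hnormc; exact hn hnormc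
    nlinarith
  rw [hγ, gamma_eq_ofc, pow_two (ofc p q r), ofc_mul] at hγ''
  have hth : th = ofc 0 1 0 := by simp [ofc]
  rcases hs with rfl | rfl | rfl | rfl
  · rw [one_mul] at hγ''
    obtain ⟨e1, e2, e3⟩ := ofc_inj hγ''
    refine ⟨p, q, r, ?_, ?_, ?_⟩ <;> linarith
  · exact absurd (by rw [show (-1 : 𝓞 K11) = ofc (-1) 0 0 by simp [ofc], nO_ofc]; norm_num [nform]) hmin
  · exact absurd (by rw [hth, nO_ofc]; norm_num [nform]) hmin
  · exfalso
    rw [show -th = ofc 0 (-1) 0 by simp [ofc], ofc_mul] at hγ''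
    obtain ⟨e1, e2, e3⟩ := ofc_inj hγ''
    have h4 : ∀ p q r E M : ZMod 4,
        E ^ 2 + M = (q ^ 2 + 2 * p * r + 2 * q * r) →
        -2 * M = -(p * p - q * r - r * (q + r) - (p * r + q * (q + r) + r * (p + q))) →
        M = -(p * q + q * (p - r) - r * (q + 2 * r) + (p * r + q * (q + r) + r * (p + q))) →
        2 * E = 0 ∧ 2 * M = 0 := by decide
    have f1 := congrArg (fun t : ℤ => (t : ZMod 4)) e1
    have f2 := congrArg (fun t : ℤ => (t : ZMod 4)) e2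
    have f3 := congrArg (fun t : ℤ => (t : ZMod 4)) e3
    push_cast at f1 f2 f3
    obtain ⟨he, hm⟩ := h4 (p : ZMod 4) q r e m (by linear_combination f1)
      (by linear_combination f2) (by linear_combination f3)
    have he' : ((2 * e : ℤ) : ZMod 4) = 0 := by push_cast; exact he
    have hm' : ((2 * m : ℤ) : ZMod 4) = 0 := by push_cast; exact hm
    rw [ZMod.intCast_zmod_eq_zero_iff_dvd] at he' hm'
    have h2 := hcop.isUnit_of_dvd' (show (2 : ℤ) ∣ m by push_cast at hm'; omega)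
      (show (2 : ℤ) ∣ e by push_cast at he'; omega)
    rw [Int.isUnit_iff] at h2
    omega

end Fermat.Agent.X11
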